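import Mathlib

/-!
# S18 / block A4: the different exponent at a tamely ramified prime is `e - 1`

Mathlib knows `P ^ (e - 1) ∣ differentIdeal A B` (`pow_sub_one_dvd_differentIdeal`) and
"unramified iff `¬ P ∣ differentIdeal`".  Here we add the missing upper bound:

* `not_pow_dvd_differentIdeal_of_finrank_ne_zero` : if `p B = P ^ e * Q` with `P ^ e`, `Q` coprime
  and `dim_{A/p} (B / P ^ e)` is nonzero in `A / p`, then `¬ P ^ e ∣ differentIdeal A B`.
* `not_pow_dvd_differentIdeal_of_tame` : the same with `e` the ramification index of the maximal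
  ideal `P` over `p` (given by `p B ≤ P ^ e`, `¬ p B ≤ P ^ (e + 1)`) and the hypothesis
  `(e * f : A / p) ≠ 0`, `f = [B / P : A / p]`.
* `count_differentIdeal_eq_of_tame` : hence the exact exponent of `P` in the different is `e - 1`.

Proof: pick `y ≡ 1 mod P ^ e`, `y ≡ 0 mod Q`; then `Tr(y) mod p` is the trace of `1` on
`B / P ^ e`, i.e. `dim_{A/p} (B / P ^ e) = e f`, which is not in `p`; now apply Mathlib's
`not_dvd_differentIdeal_of_intTrace_not_mem` to the pair of ideals `(P ^ e, Q)`.
-/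

set_option autoImplicit false

open Module

namespace Fermat.Agent.S18.Different.Tame

attribute [local instance] FractionRing.liftAlgebra FractionRing.isScalarTower_liftAlgebra
  Ideal.Quotient.field

variable (A : Type*) {B : Type*} [CommRing A] [CommRing B] [Algebra A B]
  [IsDedekindDomain A] [IsDedekindDomain B]
  [IsTorsionFree A B] [Module.Finite A B]

/-- The trace criterion, for a pair of coprime ideals `I * Q = p B`: if the `A / p`-dimension of
`B / I` is nonzero in `A / p`, then `I` does not divide the different. -/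
theorem not_dvd_differentIdeal_of_finrank_ne_zero
    [Algebra.IsSeparable (FractionRing A) (FractionRing B)]
    {p : Ideal A} [p.IsMaximal] (I Q : Ideal B)
    (hIQ : IsCoprime I Q) (hI : I * Q = Ideal.map (algebraMap A B) p)
    (hdim :
      letI : Algebra (A ⧸ p) (B ⧸ I) := Ideal.Quotient.algebraQuotientOfLEComap (by
        rw [← Ideal.map_le_iff_le_comap, ← hI]
        exact Ideal.mul_le_left)
      ((Module.finrank (A ⧸ p) (B ⧸ I) : ℕ) : A ⧸ p) ≠ 0) :
    ¬ I ∣ differentIdeal A B := by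
  let : Algebra (A ⧸ p) (B ⧸ I) := Ideal.Quotient.algebraQuotientOfLEComap (by
      rw [← Ideal.map_le_iff_le_comap, ← hI]
      exact Ideal.mul_le_left)
  let : Algebra (A ⧸ p) (B ⧸ Q) := Ideal.Quotient.algebraQuotientOfLEComap (by
      rw [← Ideal.map_le_iff_le_comap, ← hI]
      exact Ideal.mul_le_right)
  have : IsScalarTower A (A ⧸ p) (B ⧸ I) := .of_algebraMap_eq' rfl
  have : IsScalarTower A (A ⧸ p) (B ⧸ Q) := .of_algebraMap_eq' rfl
  have : Module.Finite (A ⧸ p) (B ⧸ I) :=
    Module.Finite.of_restrictScalars_finite A (A ⧸ p) (B ⧸ I)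
  have : Module.Finite (A ⧸ p) (B ⧸ Q) :=
    Module.Finite.of_restrictScalars_finite A (A ⧸ p) (B ⧸ Q)
  let e : (B ⧸ p.map (algebraMap A B)) ≃ₐ[A ⧸ p] ((B ⧸ I) × B ⧸ Q) :=
    { __ := (Ideal.quotEquivOfEq hI.symm).trans (Ideal.quotientMulEquivQuotientProd I Q hIQ),
      commutes' := Quotient.ind fun _ ↦ rfl }
  obtain ⟨y, hy⟩ := Ideal.Quotient.mk_surjective (e.symm (1, 0))
  refine not_dvd_differentIdeal_of_intTrace_not_mem A I Q hI y ?_ ?_
  · have := congr((e $hy).2)
    simp at this
    simpa [e, Ideal.Quotient.eq_zero_iff_mem] using this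
  · rw [← Ideal.Quotient.eq_zero_iff_mem, ← Algebra.trace_quotient_eq_of_isDedekindDomain,
      hy, Algebra.trace_eq_of_algEquiv, Algebra.trace_prod_apply]
    simp only [map_zero, add_zero]
    rw [Algebra.trace_apply, map_one, LinearMap.trace_one]
    exact hdim

set_option linter.deprecated false in
/-- **Tame ramification**: if `e` is the ramification index of the maximal ideal `P` over `p`
and `e * [B/P : A/p]` is nonzero in `A / p`, then `P ^ e` does not divide the different. -/
theorem not_pow_dvd_differentIdeal_of_tame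
    [Algebra.IsSeparable (FractionRing A) (FractionRing B)]
    {p : Ideal A} [p.IsMaximal] (hp : p ≠ ⊥) (P : Ideal B) [P.IsMaximal] [P.LiesOver p]
    (e : ℕ) (hle : Ideal.map (algebraMap A B) p ≤ P ^ e)
    (hnle : ¬ Ideal.map (algebraMap A B) p ≤ P ^ (e + 1))
    (htame : ((e * Module.finrank (A ⧸ p) (B ⧸ P) : ℕ) : A ⧸ p) ≠ 0) :
    ¬ P ^ e ∣ differentIdeal A B := by
  have he0 : e ≠ 0 := by
    rintro rfl
    simp at htame
  have hidx : p.ramificationIdx' P = e := Ideal.ramificationIdx'_spec hle hnle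
  have hp' : Ideal.map (algebraMap A B) p ≠ ⊥ :=
    (Ideal.map_eq_bot_iff_of_injective (FaithfulSMul.algebraMap_injective A B)).not.mpr hp
  have hPbot : P ≠ ⊥ := by
    rintro rfl
    apply hp'
    rw [← le_bot_iff]
    refine hle.trans ?_
    rw [Ideal.bot_pow he0]
  obtain ⟨Q, hsup, hfac⟩ := Ideal.eq_prime_pow_mul_coprime hp' P
  rw [← Ideal.IsDedekindDomain.ramificationIdx'_eq_normalizedFactors_count hp' inferInstance hPbot,
    hidx] at hfac
  have hcop : IsCoprime (P ^ e) Q :=
    IsCoprime.pow_left (Ideal.isCoprime_iff_sup_eq.mpr hsup)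
  refine not_dvd_differentIdeal_of_finrank_ne_zero A (P ^ e) Q hcop hfac.symm ?_
  subst hidx
  have key := Ideal.finrank_prime_pow_ramificationIdx p P hPbot he0
  show ((Module.finrank (A ⧸ p) (B ⧸ P ^ p.ramificationIdx' P) : ℕ) : A ⧸ p) ≠ 0
  rw [key]
  exact htame

/-- Both divisibility statements at a tamely ramified prime. -/
theorem pow_sub_one_dvd_and_not_pow_dvd_of_tame
    [Algebra.IsSeparable (FractionRing A) (FractionRing B)]
    {p : Ideal A} [p.IsMaximal] (hp : p ≠ ⊥) (P : Ideal B) [P.IsMaximal] [P.LiesOver p]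
    (e : ℕ) (hle : Ideal.map (algebraMap A B) p ≤ P ^ e)
    (hnle : ¬ Ideal.map (algebraMap A B) p ≤ P ^ (e + 1))
    (htame : ((e * Module.finrank (A ⧸ p) (B ⧸ P) : ℕ) : A ⧸ p) ≠ 0) :
    P ^ (e - 1) ∣ differentIdeal A B ∧ ¬ P ^ e ∣ differentIdeal A B :=
  ⟨pow_sub_one_dvd_differentIdeal A P e hp (Ideal.dvd_iff_le.mpr hle),
    not_pow_dvd_differentIdeal_of_tame A hp P e hle hnle htame⟩

/-- **The different exponent at a tamely ramified prime is `e - 1`.** -/
theorem count_differentIdeal_eq_of_tame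
    [Algebra.IsSeparable (FractionRing A) (FractionRing B)]
    {p : Ideal A} [p.IsMaximal] (hp : p ≠ ⊥) (P : Ideal B) [P.IsMaximal] [P.LiesOver p]
    (e : ℕ) (hle : Ideal.map (algebraMap A B) p ≤ P ^ e)
    (hnle : ¬ Ideal.map (algebraMap A B) p ≤ P ^ (e + 1))
    (htame : ((e * Module.finrank (A ⧸ p) (B ⧸ P) : ℕ) : A ⧸ p) ≠ 0) :
    Multiset.count P (UniqueFactorizationMonoid.normalizedFactors (differentIdeal A B)) = e - 1 := by
  have he0 : e ≠ 0 := by
    rintro rfl
    simp at htame
  obtain ⟨h1, h2⟩ := pow_sub_one_dvd_and_not_pow_dvd_of_tame A hp P e hle hnle htame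
  have hPbot : P ≠ ⊥ := by
    rintro rfl
    have hp' : Ideal.map (algebraMap A B) p ≠ ⊥ :=
      (Ideal.map_eq_bot_iff_of_injective (FaithfulSMul.algebraMap_injective A B)).not.mpr hp
    apply hp'
    rw [← le_bot_iff]
    refine hle.trans ?_
    rw [Ideal.bot_pow he0]
  refine Ideal.count_normalizedFactors_eq (Ideal.dvd_iff_le.mp h1) ?_
  rw [Nat.sub_add_cancel (Nat.one_le_iff_ne_zero.mpr he0), ← Ideal.dvd_iff_le]
  exact h2

/-- Residue characteristic zero: every prime is tame. -/
theorem count_differentIdeal_eq_of_charZero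
    [Algebra.IsSeparable (FractionRing A) (FractionRing B)]
    {p : Ideal A} [p.IsMaximal] [CharZero (A ⧸ p)] (hp : p ≠ ⊥) (P : Ideal B) [P.IsMaximal]
    [P.LiesOver p] (e : ℕ) (he : e ≠ 0) (hle : Ideal.map (algebraMap A B) p ≤ P ^ e)
    (hnle : ¬ Ideal.map (algebraMap A B) p ≤ P ^ (e + 1)) :
    Multiset.count P (UniqueFactorizationMonoid.normalizedFactors (differentIdeal A B)) = e - 1 := by
  refine count_differentIdeal_eq_of_tame A hp P e hle hnle ?_
  have hfin : Module.Finite (A ⧸ p) (B ⧸ P) :=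
    Module.Finite.of_restrictScalars_finite A (A ⧸ p) (B ⧸ P)
  have hpos : 0 < Module.finrank (A ⧸ p) (B ⧸ P) := Module.finrank_pos
  exact_mod_cast (Nat.mul_ne_zero he hpos.ne')

/-- Trivial residue extension (`f = 1`): tame as soon as `e` is invertible in `A / p`. -/
theorem count_differentIdeal_eq_of_finrank_eq_one
    [Algebra.IsSeparable (FractionRing A) (FractionRing B)]
    {p : Ideal A} [p.IsMaximal] (hp : p ≠ ⊥) (P : Ideal B) [P.IsMaximal]
    [P.LiesOver p] (hf : Module.finrank (A ⧸ p) (B ⧸ P) = 1)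
    (e : ℕ) (he : ((e : ℕ) : A ⧸ p) ≠ 0) (hle : Ideal.map (algebraMap A B) p ≤ P ^ e)
    (hnle : ¬ Ideal.map (algebraMap A B) p ≤ P ^ (e + 1)) :
    Multiset.count P (UniqueFactorizationMonoid.normalizedFactors (differentIdeal A B)) = e - 1 := by
  refine count_differentIdeal_eq_of_tame A hp P e hle hnle ?_
  rw [hf, mul_one]
  exact he

end Fermat.Agent.S18.Different.Tame
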