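import Mathlib

/-!
# PROJECT H (S18), block A4: approximation by a subalgebra at finitely many primes

`B` a Dedekind domain, `A → B` a ring map, `S` an `A`-subalgebra of `B`.

* `exists_sub_mem_pow` : if `S` contains a uniformiser `π` at the prime `v` and the residue field
  of `v` is covered by `A`, then every element of `B` is congruent to an element of `S` modulo any
  power of `v`.
* `exists_forall_sub_mem_pow` : the same simultaneously at finitely many distinct primes `P i`,
  provided `S` contains uniformisers `π i` at `P i` with `π j ∉ P i` for `i ≠ j`.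
-/

set_option autoImplicit false

namespace Fermat.Agent.S18.Different

open IsDedekindDomain HeightOneSpectrum WithZero

variable {A B : Type*} [CommRing A] [CommRing B] [IsDedekindDomain B] [Algebra A B]

/-- a uniformiser to the `n`-th power lies in `v ^ n` -/
theorem pow_mem_pow_of_intValuation (v : HeightOneSpectrum B) {π : B}
    (hπ : v.intValuation π = exp (-1 : ℤ)) (n : ℕ) : π ^ n ∈ v.asIdeal ^ n := by
  rw [← intValuation_le_pow_iff_mem, map_pow, hπ, ← exp_nsmul]
  simp

/-- a uniformiser to the `n`-th power does not lie in `v ^ (n + 1)` -/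
theorem pow_not_mem_pow_succ_of_intValuation (v : HeightOneSpectrum B) {π : B}
    (hπ : v.intValuation π = exp (-1 : ℤ)) (n : ℕ) : π ^ n ∉ v.asIdeal ^ (n + 1) := by
  rw [← intValuation_le_pow_iff_mem, map_pow, hπ, ← exp_nsmul, exp_le_exp]
  simp

/-- **Approximation at one prime.** -/
theorem exists_sub_mem_pow (v : HeightOneSpectrum B) (S : Subalgebra A B) {π : B} (hπS : π ∈ S)
    (hπ : v.intValuation π = exp (-1 : ℤ))
    (hres : ∀ b : B, ∃ a : A, b - algebraMap A B a ∈ v.asIdeal) (n : ℕ) (b : B) :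
    ∃ s ∈ S, b - s ∈ v.asIdeal ^ n := by
  induction n with
  | zero => exact ⟨0, S.zero_mem, by simp⟩
  | succ n ih =>
    obtain ⟨s, hs, hbs⟩ := ih
    obtain ⟨d, e, he, hde⟩ := Ideal.exists_mul_add_mem_pow_succ v.ne_bot (π ^ n) (b - s)
      (pow_mem_pow_of_intValuation v hπ n) (pow_not_mem_pow_succ_of_intValuation v hπ n) hbs
    obtain ⟨a, ha⟩ := hres d
    refine ⟨s + algebraMap A B a * π ^ n, ?_, ?_⟩
    · exact S.add_mem hs (S.mul_mem (S.algebraMap_mem a) (S.pow_mem hπS n))
    · have h1 : b - (s + algebraMap A B a * π ^ n) = π ^ n * (d - algebraMap A B a) + e := by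
        rw [← sub_sub, ← hde]; ring
      rw [h1, pow_succ]
      exact Ideal.add_mem _ (Ideal.mul_mem_mul (pow_mem_pow_of_intValuation v hπ n) ha)
        (by rwa [← pow_succ])

/-- an element outside a maximal ideal is invertible modulo every power of it -/
theorem exists_mul_sub_one_mem_pow (v : HeightOneSpectrum B) {u : B} (hu : u ∉ v.asIdeal) (n : ℕ) :
    ∃ b : B, u * b - 1 ∈ v.asIdeal ^ n := by
  have hmax : v.asIdeal.IsMaximal := v.isMaximal
  have h1 : Ideal.span {u} ⊔ v.asIdeal = ⊤ := by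
    by_contra h
    have hle : Ideal.span {u} ⊔ v.asIdeal = v.asIdeal :=
      (hmax.eq_of_le h le_sup_right).symm
    exact hu (hle ▸ Ideal.mem_sup_left (Ideal.mem_span_singleton_self u))
  have h2 : Ideal.span {u} ⊔ v.asIdeal ^ n = ⊤ := Ideal.sup_pow_eq_top h1
  have h3 : (1 : B) ∈ Ideal.span {u} ⊔ v.asIdeal ^ n := h2 ▸ Submodule.mem_top
  obtain ⟨a, b, hb, hab⟩ := Ideal.mem_span_singleton_sup.mp h3
  refine ⟨a, ?_⟩
  have : u * a - 1 = -b := by rw [← hab]; ring
  rw [this]
  exact neg_mem hb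

/-- **Simultaneous approximation at finitely many primes.** -/
theorem exists_forall_sub_mem_pow {ι : Type*} [Fintype ι] [DecidableEq ι]
    (P : ι → HeightOneSpectrum B) (S : Subalgebra A B) (π : ι → B) (hπS : ∀ i, π i ∈ S)
    (hπ : ∀ i, (P i).intValuation (π i) = exp (-1 : ℤ))
    (hπ' : ∀ i j, i ≠ j → π j ∉ (P i).asIdeal)
    (hres : ∀ (i : ι) (b : B), ∃ a : A, b - algebraMap A B a ∈ (P i).asIdeal)
    (n : ℕ) (b : B) :
    ∃ s ∈ S, ∀ i, b - s ∈ (P i).asIdeal ^ n := by
  -- `u i = ∏_{j ≠ i} (π j)^n`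
  set u : ι → B := fun i => ∏ j ∈ Finset.univ.erase i, π j ^ n with hu
  have huS : ∀ i, u i ∈ S := fun i => S.prod_mem fun j _ => S.pow_mem (hπS j) n
  have hu_mem : ∀ i j, i ≠ j → u j ∈ (P i).asIdeal ^ n := by
    intro i j hij
    have hi : i ∈ Finset.univ.erase j := Finset.mem_erase.mpr ⟨hij, Finset.mem_univ i⟩
    have h1 : u j = π i ^ n * ∏ l ∈ (Finset.univ.erase j).erase i, π l ^ n :=
      (Finset.mul_prod_erase _ (fun l => π l ^ n) hi).symm
    rw [h1]
    exact Ideal.mul_mem_right _ _ (pow_mem_pow_of_intValuation (P i) (hπ i) n)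
  have hu_not : ∀ i, u i ∉ (P i).asIdeal := by
    intro i hmem
    have hprime : (P i).asIdeal.IsPrime := (P i).isPrime
    have hmem' : ∏ j ∈ Finset.univ.erase i, π j ^ n ∈ (P i).asIdeal := hmem
    rw [Ideal.IsPrime.prod_mem_iff] at hmem'
    obtain ⟨j, hj, hjmem⟩ := hmem'
    exact hπ' i j (Finset.ne_of_mem_erase hj).symm (hprime.mem_of_pow_mem n hjmem)
  -- inverses of `u i` modulo `P i ^ n`, approximated inside `S`
  have hinv : ∀ i, ∃ s ∈ S, u i * s - 1 ∈ (P i).asIdeal ^ n := by
    intro i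
    obtain ⟨b', hb'⟩ := exists_mul_sub_one_mem_pow (P i) (hu_not i) n
    obtain ⟨s, hs, hbs⟩ := exists_sub_mem_pow (P i) S (hπS i) (hπ i) (hres i) n b'
    refine ⟨s, hs, ?_⟩
    have : u i * s - 1 = (u i * b' - 1) - u i * (b' - s) := by ring
    rw [this]
    exact sub_mem hb' (Ideal.mul_mem_left _ _ hbs)
  choose w hwS hw using hinv
  have happ : ∀ i, ∃ s ∈ S, b - s ∈ (P i).asIdeal ^ n := fun i =>
    exists_sub_mem_pow (P i) S (hπS i) (hπ i) (hres i) n b
  choose t htS ht using happ
  refine ⟨∑ j, u j * w j * t j, S.sum_mem fun j _ => S.mul_mem (S.mul_mem (huS j) (hwS j)) (htS j),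
    fun i => ?_⟩
  have hsplit : b - ∑ j, u j * w j * t j =
      (b - t i) - (u i * w i - 1) * t i - ∑ j ∈ Finset.univ.erase i, u j * w j * t j := by
    rw [← Finset.add_sum_erase _ _ (Finset.mem_univ i)]; ring
  rw [hsplit]
  refine sub_mem (sub_mem (ht i) (Ideal.mul_mem_right _ _ (hw i))) (Ideal.sum_mem _ fun j hj => ?_)
  have hji : i ≠ j := (Finset.ne_of_mem_erase hj).symm
  rw [mul_assoc]
  exact Ideal.mul_mem_right _ _ (hu_mem i j hji)

end Fermat.Agent.S18.Different
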