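import Mathlib

/-!
# PROJECT H (S18), block A4: local monogenicity gives a conductor prime to `𝔭`

If every element of `B` is congruent to an element of `A[x]` modulo `𝔭 B` (and `B` is a finite
`A`-module), then some `r ∈ A` with `r ≡ 1 mod 𝔭` lies in the conductor of `A[x]` in `B`
(`exists_mem_conductor`, Nakayama).  Consequently `K[x] = L` (`adjoin_field_eq_top_of_conductor`).
-/

set_option autoImplicit false

namespace Fermat.Agent.S18.Different

variable {A B : Type*} [CommRing A] [CommRing B] [Algebra A B]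

theorem exists_mem_conductor [Module.Finite A B] (𝔭 : Ideal A) (x : B)
    (h : ∀ b : B, ∃ s ∈ Algebra.adjoin A {x}, b - s ∈ 𝔭.map (algebraMap A B)) :
    ∃ r : A, r - 1 ∈ 𝔭 ∧ algebraMap A B r ∈ conductor A x := by
  set N₀ : Submodule A B := Subalgebra.toSubmodule (Algebra.adjoin A {x}) with hN₀
  have hfg : (⊤ : Submodule A (B ⧸ N₀)).FG := Module.Finite.fg_top
  have hle : (⊤ : Submodule A (B ⧸ N₀)) ≤ 𝔭 • (⊤ : Submodule A (B ⧸ N₀)) := by
    intro m _
    obtain ⟨b, rfl⟩ := Submodule.Quotient.mk_surjective N₀ m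
    obtain ⟨s, hs, hbs⟩ := h b
    have hs0 : (Submodule.Quotient.mk s : B ⧸ N₀) = 0 :=
      (Submodule.Quotient.mk_eq_zero N₀).mpr ((Subalgebra.mem_toSubmodule _).mpr hs)
    have hb : (Submodule.Quotient.mk b : B ⧸ N₀) = Submodule.Quotient.mk (b - s) := by
      rw [Submodule.Quotient.mk_sub, hs0, sub_zero]
    rw [hb]
    have hmem : b - s ∈ (𝔭 • ⊤ : Submodule A B) := by
      rw [Ideal.smul_top_eq_map]; exact hbs
    have h2 : N₀.mkQ (b - s) ∈ Submodule.map N₀.mkQ (𝔭 • ⊤ : Submodule A B) :=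
      Submodule.mem_map_of_mem hmem
    rw [Submodule.map_smul''] at h2
    exact Submodule.smul_mono le_rfl le_top h2
  obtain ⟨r, hr1, hr⟩ :=
    Submodule.exists_sub_one_mem_and_smul_eq_zero_of_fg_of_le_smul 𝔭 ⊤ hfg hle
  refine ⟨r, hr1, mem_conductor_iff.mpr fun b => ?_⟩
  have h0 := hr (Submodule.Quotient.mk b) Submodule.mem_top
  rw [← Submodule.Quotient.mk_smul, Submodule.Quotient.mk_eq_zero] at h0
  rw [← Algebra.smul_def]
  exact (Subalgebra.mem_toSubmodule _).mp h0

end Fermat.Agent.S18.Different
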