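import Mathlib

/-!
# PROJECT H (S18), block A4-local: the minimal polynomial of a generator of a Galois extension

For a finite Galois extension `L/K` and `τ : L` with `K[τ] = L`:

* `map_minpoly_eq_prod` : `minpoly K τ = ∏_{g ∈ Gal(L/K)} (X - g τ)` (in `L[X]`);
* `aeval_derivative_minpoly_eq_prod` : `(minpoly K τ)'(τ) = ∏_{g ≠ 1} (τ - g τ)`.
-/

set_option autoImplicit false

namespace Fermat.Agent.S18.Different

open Polynomial IntermediateField

variable {K L : Type*} [Field K] [Field L] [Algebra K L] [FiniteDimensional K L] [IsGalois K L]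

omit [FiniteDimensional K L] [IsGalois K L] in
theorem galois_smul_injective {τ : L} (hτ : Algebra.adjoin K {τ} = ⊤) :
    Function.Injective fun g : Gal(L/K) => g τ := by
  intro g h hgh
  have h1 : (g : L →ₐ[K] L) = (h : L →ₐ[K] L) :=
    AlgHom.ext_of_adjoin_eq_top hτ (fun x hx => by
      rw [Set.mem_singleton_iff] at hx; subst hx; exact hgh)
  exact AlgEquiv.coe_toAlgHom_injective h1

theorem map_minpoly_eq_prod {τ : L} (hτ : Algebra.adjoin K {τ} = ⊤) :
    (minpoly K τ).map (algebraMap K L) = ∏ g : Gal(L/K), (X - C (g τ)) := by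
  classical
  have hint : IsIntegral K τ := Algebra.IsIntegral.isIntegral τ
  have hmonic : ((minpoly K τ).map (algebraMap K L)).Monic := (minpoly.monic hint).map _
  have hPmonic : (∏ g : Gal(L/K), (X - C (g τ))).Monic :=
    monic_prod_of_monic _ _ fun g _ => monic_X_sub_C _
  have hdvd : (∏ g : Gal(L/K), (X - C (g τ))) ∣ (minpoly K τ).map (algebraMap K L) := by
    refine Finset.prod_dvd_of_coprime ?_ ?_
    · intro g _ h _ hgh
      exact pairwise_coprime_X_sub_C (galois_smul_injective hτ) hgh
    · intro g _
      rw [dvd_iff_isRoot, IsRoot.def, eval_map_algebraMap]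
      have := congrArg g (minpoly.aeval K τ)
      rwa [← Polynomial.aeval_algHom_apply, map_zero] at this
  have hdeg : ((minpoly K τ).map (algebraMap K L)).natDegree ≤
      (∏ g : Gal(L/K), (X - C (g τ))).natDegree := by
    rw [natDegree_map, natDegree_prod_of_monic _ _ fun g _ => monic_X_sub_C _]
    simp only [natDegree_X_sub_C, Finset.sum_const, Finset.card_univ, smul_eq_mul, mul_one]
    have htop : K⟮τ⟯ = ⊤ := by
      rw [← IntermediateField.toSubalgebra_inj,
        IntermediateField.adjoin_simple_toSubalgebra_of_isAlgebraic hint.isAlgebraic, hτ,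
        IntermediateField.top_toSubalgebra]
    rw [(Field.primitive_element_iff_minpoly_natDegree_eq K τ).mp htop,
      ← IsGalois.card_aut_eq_finrank K L, Nat.card_eq_fintype_card]
  exact eq_of_monic_of_dvd_of_natDegree_le hPmonic hmonic hdvd hdeg

theorem aeval_derivative_minpoly_eq_prod [DecidableEq Gal(L/K)] {τ : L}
    (hτ : Algebra.adjoin K {τ} = ⊤) :
    aeval τ (derivative (minpoly K τ)) =
      ∏ g ∈ (Finset.univ.erase (1 : Gal(L/K))), (τ - g τ) := by
  have h1 : aeval τ (derivative (minpoly K τ)) =
      eval τ (derivative ((minpoly K τ).map (algebraMap K L))) := by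
    rw [derivative_map, eval_map_algebraMap]
  rw [h1, map_minpoly_eq_prod hτ,
    ← Finset.mul_prod_erase Finset.univ (fun g : Gal(L/K) => X - C (g τ)) (Finset.mem_univ 1),
    derivative_mul, eval_add, eval_mul, eval_mul]
  simp only [AlgEquiv.one_apply, derivative_sub, derivative_X, derivative_C, sub_zero, eval_one,
    one_mul, eval_sub, eval_X, eval_C, sub_self, zero_mul, add_zero]
  rw [eval_prod]
  simp only [eval_sub, eval_X, eval_C]

end Fermat.Agent.S18.Different
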