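import Mathlib
import Fermat.Agent.S18.Different.GaloisPoly
import Fermat.Agent.S18.Different.Approx
import Fermat.Agent.S18.Different.ConductorLocal

/-!
# PROJECT H (S18), block A4: Hilbert's different formula, semilocal Galois case

Setting (`AKLB`): `A ⊆ B` Dedekind domains with fraction fields `K ⊆ L`, `L/K` finite Galois with
group `G`, `B` the integral closure of `A` in `L`; `𝔭` a maximal ideal of `A`; `P i` (`i : ι`,
`ι` finite) the primes of `B` over `𝔭`, all with trivial residue field extension (`hres`), and the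
residue field `A/𝔭` has at least `#ι` elements (`c`, `hc`).  For a prime `P i₀` and `t ∈ B` of
`P i₀`-adic valuation one:

`different_exponent` : the exponent of `P i₀` in the different `𝔇_{B/A}` is
`∑_{g ∈ Stab(P i₀), g ≠ 1} ord_{P i₀}(t - g t)`.

No decomposition field and no completion: a Chinese-remainder generator `x` of `B` over `A` locally
at `𝔭` (`x ≡ c i + uniformiser mod (P i)^M`) has conductor prime to `𝔭`, `𝔣 𝔇 = (f'(x))`,
`f'(x) = ∏_{g ≠ 1} (x - g x)`, and the factors with `g ∉ Stab(P i₀)` are units at `P i₀`.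
-/

set_option autoImplicit false
set_option linter.unusedSectionVars false
set_option linter.style.haveILetI false

namespace Fermat.Agent.S18.Different

open IsDedekindDomain HeightOneSpectrum WithZero Polynomial

section General

variable (A K L B : Type*) [CommRing A] [IsDomain A] [IsIntegrallyClosed A] [CommRing B] [IsDomain B]
  [Field K] [Field L] [Algebra A K] [IsFractionRing A K] [Algebra B L] [IsFractionRing B L]
  [Algebra A B] [Algebra K L] [Algebra A L] [IsScalarTower A K L] [IsScalarTower A B L]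
  [FiniteDimensional K L] [IsGalois K L] [IsIntegralClosure B A L]

/-- `f'(x) = ∏_{g ≠ 1} (x - g x)` in `B`, for `x : B` generating `L` over `K`. -/
theorem aeval_derivative_minpoly_eq_prod_galRestrict_of_adjoin [DecidableEq Gal(L/K)] {x : B}
    (hx : Algebra.adjoin K {algebraMap B L x} = ⊤) :
    aeval x (derivative (minpoly A x)) =
      ∏ g ∈ Finset.univ.erase (1 : Gal(L/K)), (x - galRestrict A K L B g x) := by
  apply IsFractionRing.injective B L
  have hAx : IsIntegral A x := IsIntegralClosure.isIntegral A L x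
  have h1 := aeval_derivative_minpoly_eq_prod (K := K) hx
  rw [minpoly.isIntegrallyClosed_eq_field_fractions K L hAx, derivative_map,
    aeval_map_algebraMap, aeval_algebraMap_apply] at h1
  rw [h1, map_prod]
  refine Finset.prod_congr rfl fun g _ => ?_
  rw [map_sub, algebraMap_galRestrict_apply]

/-- a nonzero element of `A` in the conductor of `A[x]` forces `K[x] = L` -/
theorem adjoin_field_eq_top_of_conductor {x : B} {r : A} (hr0 : r ≠ 0)
    (hr : algebraMap A B r ∈ conductor A x) :
    Algebra.adjoin K {algebraMap B L x} = ⊤ := by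
  have hint : IsIntegral K (algebraMap B L x) := Algebra.IsIntegral.isIntegral _
  have hfield : (IntermediateField.adjoin K {algebraMap B L x}).toSubalgebra =
      Algebra.adjoin K {algebraMap B L x} :=
    IntermediateField.adjoin_simple_toSubalgebra_of_isAlgebraic hint.isAlgebraic
  have hS : ∀ b : B, b ∈ Algebra.adjoin A {x} →
      algebraMap B L b ∈ Algebra.adjoin K {algebraMap B L x} := by
    intro b hb
    induction hb using Algebra.adjoin_induction with
    | mem y hy =>
      rw [Set.mem_singleton_iff] at hy; subst hy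
      exact Algebra.self_mem_adjoin_singleton K _
    | algebraMap a =>
      rw [← IsScalarTower.algebraMap_apply, IsScalarTower.algebraMap_apply A K L]
      exact Subalgebra.algebraMap_mem _ _
    | add y z _ _ hy hz => rw [map_add]; exact Subalgebra.add_mem _ hy hz
    | mul y z _ _ hy hz => rw [map_mul]; exact Subalgebra.mul_mem _ hy hz
  have hmem : ∀ y : L, y ∈ Algebra.adjoin K {algebraMap B L x} →
      y ∈ IntermediateField.adjoin K {algebraMap B L x} := fun y hy => by
    rw [← IntermediateField.mem_toSubalgebra, hfield]; exact hy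
  have hrL : algebraMap B L (algebraMap A B r) ≠ 0 := by
    rw [← IsScalarTower.algebraMap_apply, IsScalarTower.algebraMap_apply A K L]
    exact (map_ne_zero_iff _ (algebraMap K L).injective).mpr
      ((map_ne_zero_iff _ (IsFractionRing.injective A K)).mpr hr0)
  have hB : ∀ b : B, algebraMap B L b ∈ IntermediateField.adjoin K {algebraMap B L x} := by
    intro b
    have h1 := hmem _ (hS _ (mem_conductor_iff.mp hr b))
    have h2 := hmem _ (hS _ (mem_conductor_iff.mp hr 1))
    rw [mul_one] at h2
    have h3 : algebraMap B L b =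
        algebraMap B L (algebraMap A B r * b) / algebraMap B L (algebraMap A B r) := by
      rw [map_mul, mul_div_cancel_left₀ _ hrL]
    rw [h3]
    exact div_mem h1 h2
  rw [eq_top_iff]
  intro y _
  obtain ⟨b, s, hs, rfl⟩ := IsFractionRing.div_surjective (A := B) y
  have hdiv : algebraMap B L b / algebraMap B L s ∈
      IntermediateField.adjoin K {algebraMap B L x} := div_mem (hB b) (hB s)
  rw [← hfield]
  exact hdiv

end General

section Main

variable (A K L B : Type*) [CommRing A] [IsDedekindDomain A] [CommRing B] [IsDedekindDomain B]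
  [Field K] [Field L] [Algebra A K] [IsFractionRing A K] [Algebra B L] [IsFractionRing B L]
  [Algebra A B] [Algebra K L] [Algebra A L] [IsScalarTower A K L] [IsScalarTower A B L]
  [FiniteDimensional K L] [IsGalois K L] [IsIntegralClosure B A L]

include K L in
theorem finite_of_aklb' : Module.Finite A B := IsIntegralClosure.finite A K L B

include K L in
theorem faithfulSMul_of_aklb' : FaithfulSMul A B := by
  rw [faithfulSMul_iff_algebraMap_injective]
  intro x y hxy
  have h := congrArg (algebraMap B L) hxy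
  rw [← IsScalarTower.algebraMap_apply, ← IsScalarTower.algebraMap_apply,
    IsScalarTower.algebraMap_apply A K L, IsScalarTower.algebraMap_apply A K L] at h
  exact IsFractionRing.injective A K ((algebraMap K L).injective h)

variable {B}

/-- the valuation of a sum of two elements one of which is deeper -/
theorem intValuation_add_of_mem_pow (v : HeightOneSpectrum B) {a z : B} {m M : ℕ}
    (ha : v.intValuation a = exp (-(m : ℤ))) (hz : z ∈ v.asIdeal ^ M) (hmM : m < M) :
    v.intValuation (a + z) = exp (-(m : ℤ)) := by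
  have hz' : v.intValuation z ≤ exp (-(M : ℤ)) := (v.intValuation_le_pow_iff_mem z M).mpr hz
  have hlt : v.intValuation z < v.intValuation a := by
    rw [ha]
    refine lt_of_le_of_lt hz' ?_
    rw [exp_lt_exp]
    omega
  rw [Valuation.map_add_eq_of_lt_left _ hlt, ha]

variable (B)

include K L in
/-- **Existence of a local generator**: a Chinese-remainder element `x` with prescribed behaviour
at the primes over `𝔭`, whose conductor contains an element of `A` outside `𝔭`. -/
theorem exists_local_generator (𝔭 : Ideal A) [𝔭.IsMaximal]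
    {ι : Type*} [Fintype ι] [DecidableEq ι] (P : ι → HeightOneSpectrum B)
    (hPinj : Function.Injective P)
    (hover : ∀ (i : ι) (a : A), algebraMap A B a ∈ (P i).asIdeal ↔ a ∈ 𝔭)
    (hfac : ∃ n : ℕ, ∀ b : B, (∀ i, b ∈ (P i).asIdeal ^ n) → b ∈ 𝔭.map (algebraMap A B))
    (hres : ∀ (i : ι) (b : B), ∃ a : A, b - algebraMap A B a ∈ (P i).asIdeal)
    (c : ι → A) (hc : ∀ i j, i ≠ j → c i - c j ∉ 𝔭)
    (τ : ι → B) (hτ : ∀ i, (P i).intValuation (τ i) = exp (-1 : ℤ)) (M : ℕ) (hM : 2 ≤ M) :
    ∃ (x : B) (r : A), (∀ i, x - (algebraMap A B (c i) + τ i) ∈ (P i).asIdeal ^ M) ∧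
      r - 1 ∈ 𝔭 ∧ algebraMap A B r ∈ conductor A x := by
  haveI := finite_of_aklb' A K L B
  obtain ⟨x, hx⟩ := IsDedekindDomain.exists_forall_sub_mem_ideal (s := Finset.univ)
    (fun i => (P i).asIdeal) (fun _ => M) (fun i _ => (P i).prime)
    (fun i _ j _ hij h => hij (hPinj (HeightOneSpectrum.ext h)))
    (fun i => algebraMap A B (c i.1) + τ i.1)
  have hx' : ∀ i, x - (algebraMap A B (c i) + τ i) ∈ (P i).asIdeal ^ M :=
    fun i => hx i (Finset.mem_univ i)
  -- the local uniformisers `π i = x - c i`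
  have hπv : ∀ i, (P i).intValuation (x - algebraMap A B (c i)) = exp (-1 : ℤ) := by
    intro i
    have h1 : x - algebraMap A B (c i) = τ i + (x - (algebraMap A B (c i) + τ i)) := by ring
    rw [h1]
    have := intValuation_add_of_mem_pow (P i) (m := 1) (by simpa using hτ i) (hx' i)
      (by omega)
    simpa using this
  have hπmem : ∀ i, x - algebraMap A B (c i) ∈ (P i).asIdeal := by
    intro i
    rw [← intValuation_lt_one_iff_mem, hπv i, ← exp_zero, exp_lt_exp]
    norm_num
  have hπ' : ∀ i j, i ≠ j → x - algebraMap A B (c j) ∉ (P i).asIdeal := by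
    intro i j hij hmem
    have h1 : algebraMap A B (c j - c i) ∈ (P i).asIdeal := by
      have : algebraMap A B (c j - c i) =
          (x - algebraMap A B (c i)) - (x - algebraMap A B (c j)) := by
        rw [map_sub]; ring
      rw [this]
      exact sub_mem (hπmem i) hmem
    exact hc j i hij.symm ((hover i _).mp h1)
  have hxS : x ∈ Algebra.adjoin A {x} := Algebra.self_mem_adjoin_singleton A x
  have hπS : ∀ i, x - algebraMap A B (c i) ∈ Algebra.adjoin A {x} :=
    fun i => Subalgebra.sub_mem _ hxS (Subalgebra.algebraMap_mem _ _)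
  obtain ⟨n, hn⟩ := hfac
  have happrox : ∀ b : B, ∃ s ∈ Algebra.adjoin A {x}, b - s ∈ 𝔭.map (algebraMap A B) := by
    intro b
    obtain ⟨s, hs, hbs⟩ := exists_forall_sub_mem_pow P (Algebra.adjoin A {x})
      (fun i => x - algebraMap A B (c i)) hπS hπv hπ' hres n b
    exact ⟨s, hs, hn _ hbs⟩
  obtain ⟨r, hr1, hr⟩ := exists_mem_conductor 𝔭 x happrox
  exact ⟨x, r, hx', hr1, hr⟩

variable {A K L}

omit [IsDedekindDomain A] [IsFractionRing B L] [FiniteDimensional K L] [IsGalois K L] in
/-- an automorphism mapping a prime into itself maps its powers into themselves -/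
theorem galRestrict_mem_pow [Algebra.IsAlgebraic K L] {g : Gal(L/K)} {Q : Ideal B}
    (hg : ∀ b ∈ Q, galRestrict A K L B g b ∈ Q) (n : ℕ) {z : B} (hz : z ∈ Q ^ n) :
    galRestrict A K L B g z ∈ Q ^ n := by
  set σ : B →+* B := ((galRestrict A K L B g : B ≃ₐ[A] B) : B →ₐ[A] B).toRingHom with hσ
  have h1 : Ideal.map σ Q ≤ Q := by
    rw [Ideal.map_le_iff_le_comap]
    intro b hb
    exact hg b hb
  have h2 : Ideal.map σ (Q ^ n) ≤ Q ^ n := by
    rw [Ideal.map_pow]
    exact Ideal.pow_right_mono h1 n
  exact h2 (Ideal.mem_map_of_mem σ hz)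

theorem exp_neg_sum {α : Type*} (s : Finset α) (f : α → ℕ) :
    ∏ a ∈ s, exp (-(f a : ℤ)) = exp (-((∑ a ∈ s, f a : ℕ) : ℤ)) := by
  classical
  induction s using Finset.induction_on with
  | empty => simp
  | insert a s ha ih =>
    rw [Finset.prod_insert ha, Finset.sum_insert ha, ih, ← exp_add]
    congr 1
    push_cast
    ring

variable (A K L)

open scoped Classical in
/-- **Hilbert's different formula, semilocal Galois case.**  The exponent of the prime `P i₀` in
the different of `B/A` is `∑ m g` over the `g ≠ 1` of the Galois group mapping `P i₀` into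
itself, where `exp (-(m g))` is the `P i₀`-adic valuation of `t - g t` (`t` any element of
`P i₀`-adic valuation one). -/
theorem different_exponent (𝔭 : Ideal A) [𝔭.IsMaximal]
    {ι : Type*} [Fintype ι] [DecidableEq ι] (P : ι → HeightOneSpectrum B)
    (hPinj : Function.Injective P)
    (hover : ∀ (i : ι) (a : A), algebraMap A B a ∈ (P i).asIdeal ↔ a ∈ 𝔭)
    (hfac : ∃ n : ℕ, ∀ b : B, (∀ i, b ∈ (P i).asIdeal ^ n) → b ∈ 𝔭.map (algebraMap A B))
    (hres : ∀ (i : ι) (b : B), ∃ a : A, b - algebraMap A B a ∈ (P i).asIdeal)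
    (c : ι → A) (hc : ∀ i j, i ≠ j → c i - c j ∉ 𝔭)
    (hperm : ∀ (g : Gal(L/K)) (i : ι), ∃ j, ∀ b : B,
      b ∈ (P j).asIdeal ↔ galRestrict A K L B g b ∈ (P i).asIdeal)
    (i₀ : ι) (t : B) (ht : (P i₀).intValuation t = exp (-1 : ℤ))
    (m : Gal(L/K) → ℕ)
    (hm : ∀ g : Gal(L/K), g ≠ 1 →
      (∀ b ∈ (P i₀).asIdeal, galRestrict A K L B g b ∈ (P i₀).asIdeal) →
      (P i₀).intValuation (t - galRestrict A K L B g t) = exp (-(m g : ℤ))) :
    haveI := finite_of_aklb' A K L B
    haveI := faithfulSMul_of_aklb' A K L B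
    (P i₀).asIdeal ^ (∑ g ∈ Finset.univ.filter (fun g : Gal(L/K) => g ≠ 1 ∧
        ∀ b ∈ (P i₀).asIdeal, galRestrict A K L B g b ∈ (P i₀).asIdeal), m g) ∣
      differentIdeal A B ∧
    ¬ (P i₀).asIdeal ^ ((∑ g ∈ Finset.univ.filter (fun g : Gal(L/K) => g ≠ 1 ∧
        ∀ b ∈ (P i₀).asIdeal, galRestrict A K L B g b ∈ (P i₀).asIdeal), m g) + 1) ∣
      differentIdeal A B := by
  haveI := finite_of_aklb' A K L B
  haveI := faithfulSMul_of_aklb' A K L B
  set Mm : ℕ := 2 + ∑ g : Gal(L/K), m g with hMm
  -- uniformisers at all the primes, `t` at `P i₀`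
  have hτex : ∀ i, ∃ τ : B, (P i).intValuation τ = exp (-1 : ℤ) :=
    fun i => (P i).intValuation_exists_uniformizer
  choose τ₀ hτ₀ using hτex
  set τ : ι → B := fun i => if i = i₀ then t else τ₀ i with hτdef
  have hτ : ∀ i, (P i).intValuation (τ i) = exp (-1 : ℤ) := by
    intro i
    by_cases h : i = i₀
    · subst h; simpa [hτdef] using ht
    · simpa [hτdef, h] using hτ₀ i
  have hτi₀ : τ i₀ = t := by simp [hτdef]
  obtain ⟨x, r, hx, hr1, hr⟩ := exists_local_generator A K L B 𝔭 P hPinj hover hfac hres c hc τ hτ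
    Mm (by omega)
  have hr𝔭 : r ∉ 𝔭 := by
    intro h
    have h1 : (1 : A) ∈ 𝔭 := by
      have := sub_mem h hr1
      simpa using this
    exact (Ideal.IsMaximal.ne_top ‹_›) ((Ideal.eq_top_iff_one _).mpr h1)
  have hr0 : r ≠ 0 := fun h => hr𝔭 (h ▸ 𝔭.zero_mem)
  have hadj := adjoin_field_eq_top_of_conductor A K L B hr0 hr
  have hcond := conductor_mul_differentIdeal A K L x hadj
  rw [aeval_derivative_minpoly_eq_prod_galRestrict_of_adjoin A K L B hadj] at hcond
  -- membership facts
  have hMm1 : 1 ≤ Mm := by omega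
  have hπmem : ∀ i, x - algebraMap A B (c i) ∈ (P i).asIdeal := by
    intro i
    have h1 : x - algebraMap A B (c i) = (x - (algebraMap A B (c i) + τ i)) + τ i := by ring
    rw [h1]
    refine add_mem (Ideal.pow_le_self (by omega) (hx i)) ?_
    rw [← intValuation_lt_one_iff_mem, hτ i, ← exp_zero, exp_lt_exp]
    norm_num
  -- valuations of the factors
  have hval : ∀ g ∈ Finset.univ.erase (1 : Gal(L/K)),
      (P i₀).intValuation (x - galRestrict A K L B g x) =
        if (∀ b ∈ (P i₀).asIdeal, galRestrict A K L B g b ∈ (P i₀).asIdeal) then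
          exp (-(m g : ℤ)) else 1 := by
    intro g hg
    have hg1 : g ≠ 1 := Finset.ne_of_mem_erase hg
    split_ifs with hstab
    · -- `g` in the stabiliser
      set z : B := x - (algebraMap A B (c i₀) + t) with hz
      have hzmem : z ∈ (P i₀).asIdeal ^ Mm := by
        have := hx i₀
        rwa [hτi₀] at this
      have hσz := galRestrict_mem_pow B hstab Mm hzmem
      have hsplit : x - galRestrict A K L B g x =
          (t - galRestrict A K L B g t) + (z - galRestrict A K L B g z) := by
        rw [hz, map_sub, map_add, AlgEquiv.commutes]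
        ring
      rw [hsplit]
      refine intValuation_add_of_mem_pow (P i₀) (hm g hg1 hstab) (sub_mem hzmem hσz) ?_
      have : m g ≤ ∑ g : Gal(L/K), m g :=
        Finset.single_le_sum (fun _ _ => Nat.zero_le _) (Finset.mem_univ g)
      omega
    · -- `g` outside the stabiliser
      obtain ⟨j, hj⟩ := hperm g i₀
      have hji : j ≠ i₀ := by
        rintro rfl
        exact hstab fun b hb => (hj b).mp hb
      have h1 : galRestrict A K L B g (x - algebraMap A B (c j)) ∈ (P i₀).asIdeal :=
        (hj _).mp (hπmem j)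
      rw [map_sub, AlgEquiv.commutes] at h1
      have hnot : x - galRestrict A K L B g x ∉ (P i₀).asIdeal := by
        intro hmem
        have h2 : algebraMap A B (c j - c i₀) ∈ (P i₀).asIdeal := by
          have : algebraMap A B (c j - c i₀) =
              (x - algebraMap A B (c i₀)) - (x - galRestrict A K L B g x) -
                (galRestrict A K L B g x - algebraMap A B (c j)) := by
            rw [map_sub]; ring
          rw [this]
          exact sub_mem (sub_mem (hπmem i₀) hmem) h1
        exact hc j i₀ hji ((hover i₀ _).mp h2)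
      rw [← intValuation_lt_one_iff_mem, not_lt] at hnot
      exact le_antisymm ((P i₀).intValuation_le_one _) hnot
  -- valuation of the generator of `𝔣 𝔇`
  set d : ℕ := ∑ g ∈ Finset.univ.filter (fun g : Gal(L/K) => g ≠ 1 ∧
        ∀ b ∈ (P i₀).asIdeal, galRestrict A K L B g b ∈ (P i₀).asIdeal), m g with hd
  set y : B := ∏ g ∈ Finset.univ.erase (1 : Gal(L/K)), (x - galRestrict A K L B g x) with hy
  have hvy : (P i₀).intValuation y = exp (-(d : ℤ)) := by
    rw [hy, map_prod, Finset.prod_congr rfl hval, Finset.prod_ite, Finset.prod_const_one, mul_one,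
      exp_neg_sum, hd]
    have hfilter : (Finset.univ.erase (1 : Gal(L/K))).filter
        (fun g => ∀ b ∈ (P i₀).asIdeal, galRestrict A K L B g b ∈ (P i₀).asIdeal) =
        Finset.univ.filter (fun g : Gal(L/K) => g ≠ 1 ∧
          ∀ b ∈ (P i₀).asIdeal, galRestrict A K L B g b ∈ (P i₀).asIdeal) := by
      ext g
      simp only [Finset.mem_filter, Finset.mem_erase, Finset.mem_univ, and_true, true_and]
    rw [hfilter]
  -- the conductor is prime to `P i₀`
  have hrP : algebraMap A B r ∉ (P i₀).asIdeal := fun h => hr𝔭 ((hover i₀ r).mp h)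
  have hmax : (P i₀).asIdeal.IsMaximal := (P i₀).isMaximal
  have hsup : conductor A x ⊔ (P i₀).asIdeal = ⊤ := by
    by_contra h
    have hle : conductor A x ⊔ (P i₀).asIdeal = (P i₀).asIdeal :=
      (hmax.eq_of_le h le_sup_right).symm
    exact hrP (hle ▸ Ideal.mem_sup_left hr)
  constructor
  · have hcop : IsCoprime ((P i₀).asIdeal ^ d) (conductor A x) := by
      rw [Ideal.isCoprime_iff_sup_eq, sup_comm]
      exact Ideal.sup_pow_eq_top hsup
    refine hcop.dvd_of_dvd_mul_left ?_
    rw [hcond, Ideal.dvd_span_singleton, ← intValuation_le_pow_iff_mem, hvy]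
  · intro hdvd
    have h1 : (P i₀).asIdeal ^ (d + 1) ∣ conductor A x * differentIdeal A B :=
      dvd_mul_of_dvd_right hdvd _
    rw [hcond, Ideal.dvd_span_singleton, ← intValuation_le_pow_iff_mem, hvy, exp_le_exp] at h1
    omega

end Main

section Wrapper

variable {A B : Type*} [CommRing A] [IsDedekindDomain A] [CommRing B] [IsDedekindDomain B]
  [Algebra A B] [Module.Finite A B] [FaithfulSMul A B]

/-- if the `P i` exhaust the primes over `𝔭`, an element lying in high powers of all of them lies
in `𝔭 B` -/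
theorem exists_pow_le_map (𝔭 : Ideal A) [𝔭.IsMaximal] (h𝔭 : 𝔭 ≠ ⊥) {ι : Type*}
    (P : ι → HeightOneSpectrum B)
    (hall : ∀ Q : Ideal B, Q.IsPrime → Q.LiesOver 𝔭 → ∃ i, (P i).asIdeal = Q) :
    ∃ n : ℕ, ∀ b : B, (∀ i, b ∈ (P i).asIdeal ^ n) → b ∈ 𝔭.map (algebraMap A B) := by
  classical
  refine ⟨∑ Q ∈ (𝔭.primesOver B).toFinset, Q.ramificationIdx A, fun b hb => ?_⟩
  rw [Ideal.map_algebraMap_eq_finsetProd_pow h𝔭,
    ← IsDedekindDomain.inf_pow_eq_prod_of_prime (𝔭.primesOver B).toFinset (fun Q => Q)
      (fun Q => Q.ramificationIdx A), Submodule.mem_finsetInf]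
  · intro Q hQ
    rw [Set.mem_toFinset] at hQ
    obtain ⟨i, hi⟩ := hall Q hQ.1 hQ.2
    have hle : Q.ramificationIdx A ≤ ∑ Q ∈ (𝔭.primesOver B).toFinset, Q.ramificationIdx A :=
      Finset.single_le_sum (f := fun Q : Ideal B => Q.ramificationIdx A)
        (fun _ _ => Nat.zero_le _) (Set.mem_toFinset.mpr hQ)
    have := hb i
    rw [hi] at this
    exact Ideal.pow_le_pow_right hle this
  · intro Q hQ
    rw [Set.mem_toFinset] at hQ
    haveI := hQ.1
    exact Ideal.prime_of_isPrime (Ideal.ne_bot_of_mem_primesOver h𝔭 hQ) hQ.1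
  · intro Q _ Q' _ h
    exact h

end Wrapper

section Packaged

variable (A K L B : Type*) [CommRing A] [IsDedekindDomain A] [CommRing B] [IsDedekindDomain B]
  [Field K] [Field L] [Algebra A K] [IsFractionRing A K] [Algebra B L] [IsFractionRing B L]
  [Algebra A B] [Algebra K L] [Algebra A L] [IsScalarTower A K L] [IsScalarTower A B L]
  [FiniteDimensional K L] [IsGalois K L] [IsIntegralClosure B A L]

/-- the Galois group permutes the primes over `𝔭` -/
theorem exists_perm_of_all (𝔭 : Ideal A) {ι : Type*} (P : ι → HeightOneSpectrum B)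
    (hover : ∀ (i : ι) (a : A), algebraMap A B a ∈ (P i).asIdeal ↔ a ∈ 𝔭)
    (hall : ∀ Q : Ideal B, Q.IsPrime → Q.LiesOver 𝔭 → ∃ i, (P i).asIdeal = Q)
    (g : Gal(L/K)) (i : ι) :
    ∃ j, ∀ b : B, b ∈ (P j).asIdeal ↔ galRestrict A K L B g b ∈ (P i).asIdeal := by
  set σ : B →+* B := ((galRestrict A K L B g : B ≃ₐ[A] B) : B →ₐ[A] B).toRingHom with hσ
  have hprime : (Ideal.comap σ (P i).asIdeal).IsPrime := Ideal.comap_isPrime σ _
  have hlies : (Ideal.comap σ (P i).asIdeal).LiesOver 𝔭 := by
    rw [Ideal.liesOver_iff, Ideal.under_def]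
    ext a
    rw [Ideal.mem_comap, Ideal.mem_comap, ← hover i a]
    have : σ (algebraMap A B a) = algebraMap A B a :=
      (galRestrict A K L B g : B ≃ₐ[A] B).commutes a
    rw [this]
  obtain ⟨j, hj⟩ := hall _ hprime hlies
  refine ⟨j, fun b => ?_⟩
  rw [hj, Ideal.mem_comap]
  rfl

open scoped Classical in
/-- **Hilbert's different formula, semilocal Galois case**, packaged: the `P i` are ALL the primes
of `B` over the nonzero maximal ideal `𝔭` of `A`. -/
theorem different_exponent_of_all (𝔭 : Ideal A) [𝔭.IsMaximal] (h𝔭 : 𝔭 ≠ ⊥)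
    {ι : Type*} [Fintype ι] [DecidableEq ι] (P : ι → HeightOneSpectrum B)
    (hPinj : Function.Injective P)
    (hlies : ∀ i, (P i).asIdeal.LiesOver 𝔭)
    (hall : ∀ Q : Ideal B, Q.IsPrime → Q.LiesOver 𝔭 → ∃ i, (P i).asIdeal = Q)
    (hres : ∀ (i : ι) (b : B), ∃ a : A, b - algebraMap A B a ∈ (P i).asIdeal)
    (c : ι → A) (hc : ∀ i j, i ≠ j → c i - c j ∉ 𝔭)
    (i₀ : ι) (t : B) (ht : (P i₀).intValuation t = exp (-1 : ℤ))
    (m : Gal(L/K) → ℕ)
    (hm : ∀ g : Gal(L/K), g ≠ 1 →
      (∀ b ∈ (P i₀).asIdeal, galRestrict A K L B g b ∈ (P i₀).asIdeal) →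
      (P i₀).intValuation (t - galRestrict A K L B g t) = exp (-(m g : ℤ))) :
    haveI := finite_of_aklb' A K L B
    haveI := faithfulSMul_of_aklb' A K L B
    (P i₀).asIdeal ^ (∑ g ∈ Finset.univ.filter (fun g : Gal(L/K) => g ≠ 1 ∧
        ∀ b ∈ (P i₀).asIdeal, galRestrict A K L B g b ∈ (P i₀).asIdeal), m g) ∣
      differentIdeal A B ∧
    ¬ (P i₀).asIdeal ^ ((∑ g ∈ Finset.univ.filter (fun g : Gal(L/K) => g ≠ 1 ∧
        ∀ b ∈ (P i₀).asIdeal, galRestrict A K L B g b ∈ (P i₀).asIdeal), m g) + 1) ∣
      differentIdeal A B := by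
  haveI := finite_of_aklb' A K L B
  haveI := faithfulSMul_of_aklb' A K L B
  have hover : ∀ (i : ι) (a : A), algebraMap A B a ∈ (P i).asIdeal ↔ a ∈ 𝔭 := by
    intro i a
    haveI := hlies i
    exact (Ideal.mem_of_liesOver (P i).asIdeal 𝔭 a).symm
  exact different_exponent A K L B 𝔭 P hPinj hover (exists_pow_le_map 𝔭 h𝔭 P hall) hres c hc
    (exists_perm_of_all A K L B 𝔭 P hover hall) i₀ t ht m hm

end Packaged

end Fermat.Agent.S18.Different
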