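import Mathlib
import Fermat.Agent.S18.Different.Semilocal
import Fermat.Agent.S18.A.DiffLower

/-!
# PROJECT H (S18), slice H-A4g: Hilbert's different formula in group-action form

Setting: `A`, `B` Dedekind domains, `B` an `A`-algebra (injective structure map), `G` a finite
group acting on `B` by ring automorphisms with `IsGaloisGroup G A B` (Mathlib: the action is
faithful, commutes with `A`, and the invariants are exactly `A`).  No fraction field, no
`IsGalois`, no `galRestrict` in the statements; everything of that kind is derived inside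
(`B` is integral and finite over `A`, it is the integral closure of `A` in `Frac B`, and
`Frac B / Frac A` is Galois with group `G`).

For a prime `P` of `B` with trivial residue field extension over `p = P ∩ A` and `t ∈ B` of
`P`-adic valuation one:

`diffExpAt_eq_sum` : `Defs.diffExpAt A P = ∑_{g ≠ 1, g P ⊆ P} ord_P (t - g t)`

(`Defs.diffExpAt A P` = exponent of `P` in Mathlib's `differentIdeal A B`).
Variants: `diffExpAt_eq_sum_of_exists` (only `#{primes over p}` residue classes needed instead of
an infinite residue field), `diffExpAt_eq_sum_of_isLocalRing` (`B` local: every `g` stabilises `P`).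
-/

set_option autoImplicit false
set_option linter.style.haveILetI false
set_option linter.unusedSectionVars false

namespace Fermat.Agent.S18.Different.Action

open IsDedekindDomain HeightOneSpectrum WithZero
open Fermat.Agent.S18.A
open scoped Pointwise

attribute [local instance] FractionRing.liftAlgebra FractionRing.isScalarTower_liftAlgebra

section Setup

variable (G A B : Type*) [Group G] [Fintype G] [CommRing A] [IsDedekindDomain A] [CommRing B]
  [IsDedekindDomain B] [Algebra A B] [FaithfulSMul A B] [MulSemiringAction G B]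
  [IsGaloisGroup G A B]

include G in
/-- `B` is integral over the invariants `A` -/
theorem isIntegral : Algebra.IsIntegral A B :=
  Algebra.IsInvariant.isIntegral A B G

include G in
/-- `B` is a finite `A`-module -/
theorem moduleFinite : Module.Finite A B := by
  let K := FractionRing A
  let L := FractionRing B
  letI := IsFractionRing.mulSemiringAction G B L
  haveI : IsGaloisGroup G K L := inferInstance
  haveI : IsGalois K L := IsGaloisGroup.isGalois G K L
  haveI : FiniteDimensional K L := IsGaloisGroup.finiteDimensional G K L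
  haveI := isIntegral G A B
  haveI : IsIntegralClosure B A L := inferInstance
  exact finite_of_aklb' A K L B

include G in
/-- finitely many primes of `B` over a given prime of `A` -/
theorem finite_primes (p : Ideal A) :
    Finite {Q : HeightOneSpectrum B // Q.asIdeal.LiesOver p} := by
  haveI := moduleFinite G A B
  have hfin : (p.primesOver B).Finite := Algebra.QuasiFinite.finite_primesOver p
  haveI := hfin.to_subtype
  refine Finite.of_injective
    (fun i : {Q : HeightOneSpectrum B // Q.asIdeal.LiesOver p} =>
      (⟨i.1.asIdeal, i.1.isPrime, i.2⟩ : p.primesOver B)) ?_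
  intro i j hij
  apply Subtype.ext
  apply HeightOneSpectrum.ext
  exact congrArg Subtype.val hij

/-- for a finite group, `g P ⊆ P` is the same as `g ∈ Stab P` -/
theorem stabilizes_iff (I : Ideal B) (g : G) :
    (∀ b ∈ I, g • b ∈ I) ↔ g ∈ MulAction.stabilizer G I := by
  rw [MulAction.mem_stabilizer_iff]
  constructor
  · intro h
    have hle : g • I ≤ I := by
      intro x hx
      rw [Ideal.mem_pointwise_smul_iff_inv_smul_mem] at hx
      have := h _ hx
      rwa [smul_inv_smul] at this
    exact smul_eq_of_smul_le hle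
  · intro h b hb
    rw [← h]
    exact Ideal.smul_mem_pointwise_smul_iff.mpr hb

open scoped Classical in
/-- **Hilbert's different formula, group-action form**, with an explicit family `c` of elements of
`A`, pairwise distinct modulo `p = P ∩ A`, indexed by the primes of `B` over `p`. -/
theorem diffExpAt_eq_sum_of_exists (P : HeightOneSpectrum B)
    (hres : ∀ b : B, ∃ a : A, b - algebraMap A B a ∈ P.asIdeal)
    (hc : ∃ c : {Q : HeightOneSpectrum B // Q.asIdeal.LiesOver (P.asIdeal.under A)} → A,
      ∀ i j, i ≠ j → c i - c j ∉ P.asIdeal.under A)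
    (t : B) (ht : P.intValuation t = exp (-1 : ℤ)) (m : G → ℕ)
    (hm : ∀ g : G, g ≠ 1 → (∀ b ∈ P.asIdeal, g • b ∈ P.asIdeal) →
      P.intValuation (t - g • t) = exp (-(m g : ℤ))) :
    Defs.diffExpAt A P =
      ∑ g ∈ Finset.univ.filter (fun g : G => g ≠ 1 ∧ ∀ b ∈ P.asIdeal, g • b ∈ P.asIdeal), m g := by
  let K := FractionRing A
  let L := FractionRing B
  letI := IsFractionRing.mulSemiringAction G B L
  haveI : IsGaloisGroup G K L := inferInstance
  haveI : IsGalois K L := IsGaloisGroup.isGalois G K L
  haveI : FiniteDimensional K L := IsGaloisGroup.finiteDimensional G K L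
  haveI := isIntegral G A B
  haveI : IsIntegralClosure B A L := inferInstance
  haveI : Module.Finite A B := finite_of_aklb' A K L B
  let e : G ≃* Gal(L/K) := IsGaloisGroup.mulEquivAlgEquiv G K L
  have h1 : ∀ (g : G) (b : B), galRestrict A K L B (e g) b = g • b := by
    intro g b
    apply IsFractionRing.injective B L
    rw [algebraMap_galRestrict_apply]
    simp only [e, IsGaloisGroup.mulEquivAlgEquiv_apply_apply]
    exact (algebraMap.coe_smul' g b L).symm
  set p : Ideal A := P.asIdeal.under A with hpdef
  haveI hPmax : P.asIdeal.IsMaximal := P.isMaximal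
  haveI hpmax : p.IsMaximal := Ideal.IsMaximal.under A P.asIdeal
  have hp : p ≠ ⊥ := Ideal.under_ne_bot A P.ne_bot
  haveI hPp : P.asIdeal.LiesOver p := ⟨rfl⟩
  -- the index type
  let ι := {Q : HeightOneSpectrum B // Q.asIdeal.LiesOver p}
  haveI : Finite ι := finite_primes G A B p
  haveI : Fintype ι := Fintype.ofFinite ι
  haveI hcomm : SMulCommClass G A B := IsGaloisGroup.commutes
  -- all primes over `p` are in the family
  have hall : ∀ Q : Ideal B, Q.IsPrime → Q.LiesOver p → ∃ i : ι, (i.1).asIdeal = Q := by
    intro Q hQ hQp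
    have hQ0 : Q ≠ ⊥ := Ideal.ne_bot_of_liesOver_of_ne_bot hp Q
    exact ⟨⟨⟨Q, hQ, hQ0⟩, hQp⟩, rfl⟩
  -- trivial residue field extensions everywhere above `p`
  have hres' : ∀ (i : ι) (b : B), ∃ a : A, b - algebraMap A B a ∈ (i.1).asIdeal := by
    intro i b
    haveI := i.2
    haveI : (i.1).asIdeal.IsPrime := i.1.isPrime
    obtain ⟨g, hg⟩ := Algebra.IsInvariant.exists_smul_of_under_eq A B G P.asIdeal (i.1).asIdeal
      ((i.1).asIdeal.over_def p)
    obtain ⟨a, ha⟩ := hres (g⁻¹ • b)
    refine ⟨a, ?_⟩
    rw [hg]
    have : b - algebraMap A B a = g • (g⁻¹ • b - algebraMap A B a) := by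
      rw [smul_sub, smul_inv_smul, smul_algebraMap]
    rw [this]
    exact Ideal.smul_mem_pointwise_smul_iff.mpr ha
  obtain ⟨c, hc⟩ := hc
  let i₀ : ι := ⟨P, hPp⟩
  have hmain := different_exponent_of_all A K L B p hp (fun i : ι => i.1)
    Subtype.val_injective (fun i => i.2) hall hres' c hc i₀ t ht (fun σ => m (e.symm σ))
    (by
      intro σ hσ hstab
      obtain ⟨g, rfl⟩ := e.surjective σ
      have hg1 : g ≠ 1 := by
        rintro rfl
        exact hσ (map_one e)
      have hstab' : ∀ b ∈ P.asIdeal, g • b ∈ P.asIdeal := by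
        intro b hb
        have := hstab b hb
        rwa [h1] at this
      have := hm g hg1 hstab'
      rw [h1, MulEquiv.symm_apply_apply]
      exact this)
  -- transport the index set along `e`
  have hsum : (∑ σ ∈ Finset.univ.filter (fun σ : Gal(L/K) => σ ≠ 1 ∧
        ∀ b ∈ (i₀.1).asIdeal, galRestrict A K L B σ b ∈ (i₀.1).asIdeal), m (e.symm σ)) =
      ∑ g ∈ Finset.univ.filter (fun g : G => g ≠ 1 ∧ ∀ b ∈ P.asIdeal, g • b ∈ P.asIdeal), m g := by
    symm
    refine Finset.sum_equiv e.toEquiv ?_ ?_
    · intro g
      simp only [Finset.mem_filter, Finset.mem_univ, true_and]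
      change (g ≠ 1 ∧ ∀ b ∈ P.asIdeal, g • b ∈ P.asIdeal) ↔
        (e g ≠ 1 ∧ ∀ b ∈ P.asIdeal, galRestrict A K L B (e g) b ∈ P.asIdeal)
      constructor
      · rintro ⟨hg1, hg⟩
        refine ⟨fun h => hg1 (e.injective (h.trans (map_one e).symm)), fun b hb => ?_⟩
        rw [h1]
        exact hg b hb
      · rintro ⟨hg1, hg⟩
        refine ⟨fun h => hg1 (h ▸ map_one e), fun b hb => ?_⟩
        have := hg b hb
        rwa [h1] at this
    · intro g _
      change m g = m (e.symm (e g))
      rw [MulEquiv.symm_apply_apply]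
  rw [hsum] at hmain
  obtain ⟨hd1, hd2⟩ := hmain
  have hd1' := (DiffLower.pow_dvd_differentIdeal_iff A K L P _).mp hd1
  have hd2' := mt (DiffLower.pow_dvd_differentIdeal_iff A K L P _).mpr hd2
  omega

open scoped Classical in
/-- **Hilbert's different formula, group-action form**, infinite residue field:
`d_P = ∑_{g ≠ 1, g P ⊆ P} ord_P (t - g t)`. -/
theorem diffExpAt_eq_sum (P : HeightOneSpectrum B) [Infinite (A ⧸ P.asIdeal.under A)]
    (hres : ∀ b : B, ∃ a : A, b - algebraMap A B a ∈ P.asIdeal)
    (t : B) (ht : P.intValuation t = exp (-1 : ℤ)) (m : G → ℕ)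
    (hm : ∀ g : G, g ≠ 1 → (∀ b ∈ P.asIdeal, g • b ∈ P.asIdeal) →
      P.intValuation (t - g • t) = exp (-(m g : ℤ))) :
    Defs.diffExpAt A P =
      ∑ g ∈ Finset.univ.filter (fun g : G => g ≠ 1 ∧ ∀ b ∈ P.asIdeal, g • b ∈ P.asIdeal), m g := by
  refine diffExpAt_eq_sum_of_exists G A B P hres ?_ t ht m hm
  set p : Ideal A := P.asIdeal.under A
  let ι := {Q : HeightOneSpectrum B // Q.asIdeal.LiesOver p}
  haveI : Finite ι := finite_primes G A B p
  haveI : Fintype ι := Fintype.ofFinite ι
  let f : ι → A ⧸ p := fun i => Infinite.natEmbedding (A ⧸ p) (Fintype.equivFin ι i : ℕ)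
  have hf : Function.Injective f := by
    intro i j hij
    have := (Infinite.natEmbedding (A ⧸ p)).injective hij
    exact (Fintype.equivFin ι).injective (Fin.ext this)
  refine ⟨fun i => Quotient.out (f i), fun i j hij hmem => hij (hf ?_)⟩
  rw [← Ideal.Quotient.eq] at hmem
  simpa using hmem

open scoped Classical in
/-- **Hilbert's different formula, group-action form**, local case (`B` a discrete valuation
ring): `d = ∑_{g ≠ 1} ord (t - g t)`. -/
theorem diffExpAt_eq_sum_of_isLocalRing [IsLocalRing B] (P : HeightOneSpectrum B)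
    (hres : ∀ b : B, ∃ a : A, b - algebraMap A B a ∈ P.asIdeal)
    (t : B) (ht : P.intValuation t = exp (-1 : ℤ)) (m : G → ℕ)
    (hm : ∀ g : G, g ≠ 1 → P.intValuation (t - g • t) = exp (-(m g : ℤ))) :
    Defs.diffExpAt A P = ∑ g ∈ Finset.univ.erase (1 : G), m g := by
  have hPeq : ∀ Q : HeightOneSpectrum B, Q = P := by
    intro Q
    apply HeightOneSpectrum.ext
    rw [IsLocalRing.eq_maximalIdeal Q.isMaximal, IsLocalRing.eq_maximalIdeal P.isMaximal]
  have hstab : ∀ (g : G), ∀ b ∈ P.asIdeal, g • b ∈ P.asIdeal := by
    intro g b hb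
    rw [IsLocalRing.eq_maximalIdeal P.isMaximal, IsLocalRing.mem_maximalIdeal, mem_nonunits_iff]
      at hb ⊢
    intro hu
    apply hb
    have := hu.map (MulSemiringAction.toRingHom G B g⁻¹)
    simpa using this
  have := diffExpAt_eq_sum_of_exists G A B P hres ⟨fun _ => 0, fun i j hij => ?_⟩ t ht m
    (fun g hg _ => hm g hg)
  · rw [this]
    refine Finset.sum_congr ?_ fun _ _ => rfl
    ext g
    simp only [Finset.mem_filter, Finset.mem_univ, true_and, Finset.mem_erase, and_true]
    exact ⟨fun h => h.1, fun h => ⟨h, hstab g⟩⟩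
  · exact absurd (Subtype.ext ((hPeq i.1).trans (hPeq j.1).symm)) hij

open scoped Classical in
/-- `diffExpAt_eq_sum` with the decomposition group written as `MulAction.stabilizer`
(pointwise action of `G` on ideals of `B`). -/
theorem diffExpAt_eq_sum_stabilizer (P : HeightOneSpectrum B)
    [Infinite (A ⧸ P.asIdeal.under A)]
    (hres : ∀ b : B, ∃ a : A, b - algebraMap A B a ∈ P.asIdeal)
    (t : B) (ht : P.intValuation t = exp (-1 : ℤ)) (m : G → ℕ)
    (hm : ∀ g : G, g ≠ 1 → g ∈ MulAction.stabilizer G P.asIdeal →
      P.intValuation (t - g • t) = exp (-(m g : ℤ))) :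
    Defs.diffExpAt A P =
      ∑ g ∈ Finset.univ.filter
        (fun g : G => g ≠ 1 ∧ g ∈ MulAction.stabilizer G P.asIdeal), m g := by
  rw [diffExpAt_eq_sum G A B P hres t ht m
    (fun g hg hst => hm g hg ((stabilizes_iff G B P.asIdeal g).mp hst))]
  refine Finset.sum_congr ?_ fun _ _ => rfl
  ext g
  simp only [Finset.mem_filter, Finset.mem_univ, true_and, stabilizes_iff G B P.asIdeal g]

end Setup

end Fermat.Agent.S18.Different.Action
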