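import Mathlib
import Fermat.Agent.S18.Different.Action

/-!
# PROJECT H (S18), slice H-A4l: descent of `IsGaloisGroup` from fraction fields to local rings

`isGaloisGroup_of_valuationRing` : `A` a valuation ring with fraction field `K`, `B` a domain with
fraction field `L`, `A → B` a local homomorphism, `G` acting on `B` and `L` compatibly, and
`IsGaloisGroup G K L` (e.g. `L/K` finite Galois with group `G`).  Then `IsGaloisGroup G A B`,
i.e. `B^G = A`: no integrality of `B` over `A` is assumed (it follows).

This is the bridge from `IsGalois (RatFunc k) (MuLine c k)` (+ the `j`-line local ring maps into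
the `μ`-line local ring) to the hypothesis `IsGaloisGroup H₀ Dj D₀` of
`Different/Action.diffExpAt_eq_sum_of_isLocalRing` (`d₀ = ∑_{g ≠ 1} i₀(g)`).
-/

set_option autoImplicit false
set_option linter.unusedSectionVars false
set_option linter.style.haveILetI false

namespace Fermat.Agent.S18.Different.ActionLocal

variable (G A B K L : Type*) [Group G] [CommRing A] [IsDomain A] [ValuationRing A]
  [CommRing B] [Algebra A B] [IsLocalHom (algebraMap A B)]
  [MulSemiringAction G B]
  [Field K] [Field L] [Algebra K L] [Algebra A K] [Algebra B L] [Algebra A L]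
  [IsFractionRing A K] [IsFractionRing B L] [IsScalarTower A K L] [IsScalarTower A B L]
  [MulSemiringAction G L] [SMulDistribClass G B L]

include K L in
/-- **Descent of the Galois-group predicate to local rings.** -/
theorem isGaloisGroup_of_valuationRing [hGKL : IsGaloisGroup G K L] : IsGaloisGroup G A B := by
  have hc (a : A) : algebraMap K L (algebraMap A K a) = algebraMap B L (algebraMap A B a) := by
    simp_rw [← IsScalarTower.algebraMap_apply]
  refine ⟨⟨fun {g₁ g₂} h => ?_⟩, ⟨fun g a b => IsFractionRing.injective B L ?_⟩, ⟨fun b hb => ?_⟩⟩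
  · -- faithful
    have := hGKL.faithful
    refine eq_of_smul_eq_smul fun (y : L) => ?_
    obtain ⟨a, b, hb, rfl⟩ := IsFractionRing.div_surjective B y
    simp only [smul_div₀', ← algebraMap.coe_smul', h]
  · -- commutes
    have := hGKL.commutes
    simp [Algebra.smul_def, algebraMap.coe_smul', ← hc]
  · -- invariants
    obtain ⟨x, hx⟩ := hGKL.isInvariant.isInvariant (algebraMap B L b)
      (fun g => by rw [← algebraMap.coe_smul', hb g])
    have hinj := IsFractionRing.injective B L
    rcases ValuationRing.isInteger_or_isInteger A x with ⟨a, ha⟩ | ⟨a, ha⟩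
    · refine ⟨a, hinj ?_⟩
      rw [← hc, ha, hx]
    · by_cases hx0 : x = 0
      · refine ⟨0, hinj ?_⟩
        rw [map_zero, map_zero, ← hx, hx0, map_zero]
      · have hmul : b * algebraMap A B a = 1 := by
          apply hinj
          rw [map_mul, ← hc, ha, ← hx, map_one, ← map_mul, mul_inv_cancel₀ hx0, map_one]
        have hu : IsUnit (algebraMap A B a) := IsUnit.of_mul_eq_one _ (by rwa [mul_comm] at hmul)
        have hua : IsUnit a := isUnit_of_map_unit (algebraMap A B) a hu
        obtain ⟨u, rfl⟩ := hua
        refine ⟨((u⁻¹ : Aˣ) : A), ?_⟩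
        have h2 : algebraMap A B ((u⁻¹ : Aˣ) : A) * algebraMap A B (u : A) = 1 := by
          rw [← map_mul, Units.inv_mul, map_one]
        calc algebraMap A B ((u⁻¹ : Aˣ) : A)
            = algebraMap A B ((u⁻¹ : Aˣ) : A) * (b * algebraMap A B (u : A)) := by
              rw [hmul, mul_one]
          _ = b * (algebraMap A B ((u⁻¹ : Aˣ) : A) * algebraMap A B (u : A)) := by ring
          _ = b := by rw [h2, mul_one]

section DVR

open IsDedekindDomain HeightOneSpectrum WithZero Fermat.Agent.S18.A

variable (G A B K L : Type*) [Group G] [Fintype G]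
  [CommRing A] [IsDomain A] [IsDiscreteValuationRing A]
  [CommRing B] [IsDomain B] [IsDiscreteValuationRing B]
  [Algebra A B] [IsLocalHom (algebraMap A B)] [FaithfulSMul A B]
  [MulSemiringAction G B]
  [Field K] [Field L] [Algebra K L] [Algebra A K] [Algebra B L] [Algebra A L]
  [IsFractionRing A K] [IsFractionRing B L] [IsScalarTower A K L] [IsScalarTower A B L]
  [MulSemiringAction G L] [SMulDistribClass G B L]

include K L in
open scoped Classical in
/-- **Hilbert's formula for a totally ramified Galois extension of discrete valuation rings**, in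
the form needed for `d₀`: `A → B` a local homomorphism of DVRs with fraction fields `K ⊆ L`, `G`
acting on `B`, `L` with `IsGaloisGroup G K L`, trivial residue field extension, `t` a uniformiser
of `B`: the different exponent is `∑_{g ≠ 1} ord (t - g t)`. -/
theorem diffExpAt_eq_sum_of_dvr [IsGaloisGroup G K L] (P : HeightOneSpectrum B)
    (hres : ∀ b : B, ∃ a : A, b - algebraMap A B a ∈ P.asIdeal)
    (t : B) (ht : P.intValuation t = exp (-1 : ℤ)) (m : G → ℕ)
    (hm : ∀ g : G, g ≠ 1 → P.intValuation (t - g • t) = exp (-(m g : ℤ))) :
    Defs.diffExpAt A P = ∑ g ∈ Finset.univ.erase (1 : G), m g := by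
  haveI : IsGaloisGroup G A B := isGaloisGroup_of_valuationRing G A B K L
  exact Action.diffExpAt_eq_sum_of_isLocalRing G A B P hres t ht m hm

end DVR

end Fermat.Agent.S18.Different.ActionLocal
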