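import Mathlib

/-!
# PROJECT H (S18), slice H-A13: the different commutes with localisation

Mathlib's `differentIdeal A B` (for `B` the integral closure of `A` in a finite separable extension
`L/K`, the AKLB setting) has no localisation lemma.  For a submonoid `M ⊆ A` with localisations
`Am`, `Bm` (both realised inside `K`, `L`) we prove

* `mem_traceDual_localization_iff` : `z ∈ (Bm)ᵛ ↔ ∃ s ∈ M, s z ∈ Bᵛ` (trace duals of `1`);
* `differentIdeal_localization` : `differentIdeal Am Bm = (differentIdeal A B).map (algebraMap B Bm)`;
* `pow_dvd_differentIdeal_localization_iff`, `count_differentIdeal_localization` : the exponent of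
  a prime `P` of `B` disjoint from `M` in `differentIdeal A B` equals the exponent of `P Bm` in
  `differentIdeal Am Bm`.

The AKLB instances of the localised pair `(Am, K, L, Bm)` are instance hypotheses; they follow
from Mathlib one-liners: `IsLocalization.isDomain_of_le_nonZeroDivisors`,
`IsFractionRing.isFractionRing_of_isDomain_of_isLocalization`, `isIntegrallyClosed_of_isLocalization`,
`IsLocalization.isDedekindDomain`, `IsIntegralClosure.of_isIntegrallyClosed` (+ `isIntegral_localization`).
For the standard Mathlib pair `Localization.AtPrime p`, `Localization (algebraMapSubmonoid B p.primeCompl)`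
inside `FractionRing A`, `FractionRing B` everything is supplied:
`differentIdeal_localization_atPrime`, `count_differentIdeal_localization_atPrime`.

Everything is Mathlib-only.
-/

set_option autoImplicit false

namespace Fermat.Agent.S18.Different.Localization

open nonZeroDivisors Algebra Submodule

section Basic

variable {A K L B : Type*} [CommRing A] [Field K] [CommRing B] [Field L]
  [Algebra A K] [Algebra B L] [Algebra A B] [Algebra K L] [Algebra A L]
  [IsScalarTower A K L] [IsScalarTower A B L]
variable (M : Submonoid A) {Am Bm : Type*} [CommRing Am] [CommRing Bm]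
  [Algebra A Am] [IsLocalization M Am] [Algebra B Bm]
  [IsLocalization (Algebra.algebraMapSubmonoid B M) Bm]
  [Algebra Am K] [IsScalarTower A Am K] [Algebra Bm L] [IsScalarTower B Bm L]

/-- every element of `Bm` is `b / t` inside `L` -/
theorem exists_mul_eq_of_localization (b' : Bm) :
    ∃ (b : B) (t : A), t ∈ M ∧ algebraMap Bm L b' * algebraMap A L t = algebraMap B L b := by
  obtain ⟨⟨b, ⟨t', ht'⟩⟩, h⟩ := IsLocalization.surj (Algebra.algebraMapSubmonoid B M) b'
  obtain ⟨t, ht, rfl⟩ := ht'
  refine ⟨b, t, ht, ?_⟩
  have h2 := congrArg (algebraMap Bm L) h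
  simp only [map_mul] at h2
  rw [← IsScalarTower.algebraMap_apply B Bm L, ← IsScalarTower.algebraMap_apply B Bm L,
    ← IsScalarTower.algebraMap_apply A B L] at h2
  exact h2

/-- every element of `Am` is `a / t` inside `K` -/
theorem exists_mul_eq_of_localization_base (a' : Am) :
    ∃ (a : A) (t : A), t ∈ M ∧ algebraMap Am K a' * algebraMap A K t = algebraMap A K a := by
  obtain ⟨⟨a, ⟨t, ht⟩⟩, h⟩ := IsLocalization.surj M a'
  refine ⟨a, t, ht, ?_⟩
  have h2 := congrArg (algebraMap Am K) h
  simp only [map_mul] at h2
  rw [← IsScalarTower.algebraMap_apply A Am K, ← IsScalarTower.algebraMap_apply A Am K] at h2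
  exact h2

/-- `a / t` lies in the image of `Am` -/
theorem div_mem_range_of_localization (a : A) {t : A} (ht : t ∈ M) {c : K}
    (hc : c * algebraMap A K t = algebraMap A K a) : c ∈ (algebraMap Am K).range := by
  refine ⟨IsLocalization.mk' Am a ⟨t, ht⟩, ?_⟩
  have hu : IsUnit (algebraMap A K t) := by
    rw [IsScalarTower.algebraMap_apply A Am K]
    exact (IsLocalization.map_units Am ⟨t, ht⟩).map _
  apply hu.mul_left_injective
  simp only
  rw [hc, IsScalarTower.algebraMap_apply A Am K t, ← map_mul]
  have := IsLocalization.mk'_spec Am a ⟨t, ht⟩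
  simp only at this
  rw [this, ← IsScalarTower.algebraMap_apply A Am K]

end Basic

section TraceDual

variable {A K L B : Type*} [CommRing A] [Field K] [CommRing B] [Field L]
  [Algebra A K] [Algebra B L] [Algebra A B] [Algebra K L] [Algebra A L]
  [IsScalarTower A K L] [IsScalarTower A B L]
variable (M : Submonoid A) {Am Bm : Type*} [CommRing Am] [CommRing Bm]
  [Algebra A Am] [IsLocalization M Am] [Algebra B Bm]
  [IsLocalization (Algebra.algebraMapSubmonoid B M) Bm]
  [Algebra Am Bm]
  [Algebra Am K] [IsScalarTower A Am K] [Algebra Bm L] [IsScalarTower B Bm L]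
  [Algebra Am L] [IsScalarTower Am K L] [IsScalarTower Am Bm L]

omit [IsScalarTower A B L] in
theorem trace_algebraMap_mul (c : A) (x : L) :
    Algebra.trace K L (algebraMap A L c * x) = algebraMap A K c * Algebra.trace K L x := by
  rw [IsScalarTower.algebraMap_apply A K L, ← Algebra.smul_def, map_smul, smul_eq_mul]

/-- membership in the trace dual of `1 : Submodule B L`, spelled out -/
theorem mem_traceDual_one_iff' {z : L} :
    z ∈ Submodule.traceDual A K (1 : Submodule B L) ↔
      ∀ b : B, Algebra.trace K L (z * algebraMap B L b) ∈ (algebraMap A K).range := by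
  rw [Submodule.mem_traceDual]
  constructor
  · intro h b
    have := h (algebraMap B L b) (Submodule.mem_one.mpr ⟨b, rfl⟩)
    rwa [Algebra.traceForm_apply] at this
  · intro h a ha
    obtain ⟨b, rfl⟩ := Submodule.mem_one.mp ha
    rw [Algebra.traceForm_apply]
    exact h b

/-- **Trace duals and localisation**: `(Bm)ᵛ = ⋃_{s ∈ M} s⁻¹ Bᵛ`. -/
theorem mem_traceDual_localization_iff [Module.Finite A B] {z : L} :
    z ∈ Submodule.traceDual Am K (1 : Submodule Bm L) ↔
      ∃ s ∈ M, algebraMap A L s * z ∈ Submodule.traceDual A K (1 : Submodule B L) := by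
  classical
  rw [mem_traceDual_one_iff']
  constructor
  · intro h
    obtain ⟨S, hS⟩ := (Module.Finite.fg_top : (⊤ : Submodule A B).FG)
    -- the traces of `z b`, `b ∈ S`, as elements of `Am`
    have h1 : ∀ b : B, ∃ a' : Am, algebraMap Am K a' =
        Algebra.trace K L (z * algebraMap B L b) := by
      intro b
      have := h (algebraMap B Bm b)
      rw [← IsScalarTower.algebraMap_apply B Bm L] at this
      exact this
    choose a' ha' using h1
    obtain ⟨s, hs⟩ := IsLocalization.exist_integer_multiples_of_finset M (S.image a')
    refine ⟨s, s.2, ?_⟩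
    rw [mem_traceDual_one_iff']
    -- the set of good `b` is an `A`-submodule containing `S`
    have key : ∀ b ∈ Submodule.span A (S : Set B),
        Algebra.trace K L (algebraMap A L s * z * algebraMap B L b) ∈ (algebraMap A K).range := by
      intro b hb
      induction hb using Submodule.span_induction with
      | mem b hb =>
        obtain ⟨c, hc⟩ := hs (a' b) (Finset.mem_image_of_mem a' hb)
        refine ⟨c, ?_⟩
        rw [mul_assoc, trace_algebraMap_mul, ← ha' b, IsScalarTower.algebraMap_apply A Am K c, hc,
          Algebra.smul_def, map_mul, ← IsScalarTower.algebraMap_apply A Am K]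
      | zero => simp
      | add x y _ _ hx hy =>
        rw [map_add, mul_add, map_add]
        exact Subring.add_mem _ hx hy
      | smul c x _ hx =>
        obtain ⟨d, hd⟩ := hx
        refine ⟨c * d, ?_⟩
        have h3 : algebraMap B L (c • x) = algebraMap A L c * algebraMap B L x := by
          rw [Algebra.smul_def, map_mul, ← IsScalarTower.algebraMap_apply A B L]
        rw [h3, mul_left_comm, trace_algebraMap_mul, ← hd, (algebraMap A K).map_mul]
    intro b
    exact key b (by rw [hS]; exact Submodule.mem_top)
  · rintro ⟨s, hs, h⟩ b'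
    rw [mem_traceDual_one_iff'] at h
    obtain ⟨b, t, ht, hbt⟩ := exists_mul_eq_of_localization (B := B) (L := L) M b'
    obtain ⟨a, ha⟩ := h b
    refine div_mem_range_of_localization M a (M.mul_mem hs ht) ?_
    rw [ha, mul_comm, ← trace_algebraMap_mul]
    congr 1
    rw [← hbt, map_mul]
    ring

end TraceDual

section Different

variable {A K L B : Type*} [CommRing A] [Field K] [CommRing B] [Field L]
  [Algebra A K] [Algebra B L] [Algebra A B] [Algebra K L] [Algebra A L]
  [IsScalarTower A K L] [IsScalarTower A B L]
  [IsDomain A] [IsFractionRing A K] [IsIntegrallyClosed A] [IsDedekindDomain B]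
  [IsFractionRing B L] [IsIntegralClosure B A L] [FiniteDimensional K L]
  [Algebra.IsSeparable K L] [Module.IsTorsionFree A B]

/-- membership in the different, elementwise: `b ∈ 𝔇 ↔ b · Bᵛ ⊆ B` -/
theorem mem_differentIdeal_iff (b : B) :
    b ∈ differentIdeal A B ↔
      ∀ y ∈ Submodule.traceDual A K (1 : Submodule B L),
        ∃ c : B, algebraMap B L c = algebraMap B L b * y := by
  have hinj : Function.Injective (algebraMap B L) := IsFractionRing.injective B L
  have h1 : b ∈ differentIdeal A B ↔
      algebraMap B L b ∈ IsLocalization.coeSubmodule L (differentIdeal A B) := by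
    rw [IsLocalization.mem_coeSubmodule]
    constructor
    · intro h
      exact ⟨b, h, rfl⟩
    · rintro ⟨y, hy, hyb⟩
      rwa [← hinj hyb]
  rw [h1, coeSubmodule_differentIdeal A K, Submodule.mem_div_iff_forall_mul_mem]
  refine forall₂_congr fun y _ => ?_
  rw [Submodule.mem_one]

omit [Module.IsTorsionFree A B] in
/-- the trace dual of `1` is a finitely generated `B`-module -/
theorem traceDual_one_fg : (Submodule.traceDual A K (1 : Submodule B L)).FG := by
  have h := FractionalIdeal.isNoetherian (FractionalIdeal.dual A K (1 : FractionalIdeal B⁰ L))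
  have h2 := h.noetherian ⊤
  rw [Submodule.fg_top, FractionalIdeal.coe_dual_one] at h2
  exact h2

end Different

section Main

/-- **The different commutes with localisation.**  `(A, K, L, B)` and `(Am, K, L, Bm)` are two
AKLB settings inside the same fields `K ⊆ L` (explicit arguments), `Am`, `Bm` the localisations of
`A`, `B` at a submonoid `M` of `A`. -/
theorem differentIdeal_localization {A : Type*} (K L : Type*) {B : Type*}
    [CommRing A] [Field K] [CommRing B] [Field L]
    [Algebra A K] [Algebra B L] [Algebra A B] [Algebra K L] [Algebra A L]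
    [IsScalarTower A K L] [IsScalarTower A B L]
    [IsDomain A] [IsFractionRing A K] [IsIntegrallyClosed A] [IsDedekindDomain B]
    [IsFractionRing B L] [IsIntegralClosure B A L] [FiniteDimensional K L]
    [Algebra.IsSeparable K L] [Module.IsTorsionFree A B] [Module.Finite A B]
    (M : Submonoid A) {Am Bm : Type*} [CommRing Am] [CommRing Bm]
    [Algebra A Am] [IsLocalization M Am] [Algebra B Bm]
    [IsLocalization (Algebra.algebraMapSubmonoid B M) Bm]
    [Algebra Am Bm]
    [Algebra Am K] [IsScalarTower A Am K] [Algebra Bm L] [IsScalarTower B Bm L]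
    [Algebra Am L] [IsScalarTower Am K L] [IsScalarTower Am Bm L]
    [IsDomain Am] [IsFractionRing Am K] [IsIntegrallyClosed Am] [IsDedekindDomain Bm]
    [IsFractionRing Bm L] [IsIntegralClosure Bm Am L] [Module.IsTorsionFree Am Bm] :
    differentIdeal Am Bm = (differentIdeal A B).map (algebraMap B Bm) := by
  classical
  have hinjm : Function.Injective (algebraMap Bm L) := IsFractionRing.injective Bm L
  have hinj : Function.Injective (algebraMap B L) := IsFractionRing.injective B L
  have hAB : ∀ a : A, algebraMap B L (algebraMap A B a) = algebraMap A L a :=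
    fun a => (IsScalarTower.algebraMap_apply A B L a).symm
  have hBm : ∀ b : B, algebraMap Bm L (algebraMap B Bm b) = algebraMap B L b :=
    fun b => (IsScalarTower.algebraMap_apply B Bm L b).symm
  ext b'
  rw [mem_differentIdeal_iff (A := Am) (K := K) (L := L),
    IsLocalization.mem_map_algebraMap_iff (Algebra.algebraMapSubmonoid B M) Bm]
  constructor
  · intro h
    -- `b' = b / t`
    obtain ⟨b, t, ht, hbt⟩ := exists_mul_eq_of_localization (B := B) (L := L) M b'
    -- generators of the trace dual of `B`
    obtain ⟨S, hS⟩ := traceDual_one_fg (A := A) (K := K) (L := L) (B := B)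
    -- each generator lies in the trace dual of `Bm`
    have hS' : ∀ y ∈ S, y ∈ Submodule.traceDual Am K (1 : Submodule Bm L) := by
      intro y hy
      rw [mem_traceDual_localization_iff (A := A) (B := B) M]
      refine ⟨1, M.one_mem, ?_⟩
      rw [map_one, one_mul, ← hS]
      exact Submodule.subset_span hy
    -- `b' y = c_y / u_y`
    have h1 : ∀ y : L, ∃ (c : B) (u : A), y ∈ S → (u ∈ M ∧
        algebraMap Bm L b' * y * algebraMap A L u = algebraMap B L c) := by
      intro y
      by_cases hy : y ∈ S
      · obtain ⟨c', hc'⟩ := h y (hS' y hy)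
        obtain ⟨c, u, hu, hcu⟩ := exists_mul_eq_of_localization (B := B) (L := L) M c'
        exact ⟨c, u, fun _ => ⟨hu, by rw [← hc', hcu]⟩⟩
      · exact ⟨0, 0, fun h => absurd h hy⟩
    choose c u hcu using h1
    -- common denominator
    set U : A := ∏ y ∈ S, u y with hU
    have hUM : U ∈ M := Submonoid.prod_mem M fun y hy => (hcu y hy).1
    -- `i := U • b` lies in the different of `B/A`
    have hi : algebraMap A B U * b ∈ differentIdeal A B := by
      rw [mem_differentIdeal_iff (A := A) (K := K) (L := L)]
      intro y hy
      rw [← hS] at hy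
      induction hy using Submodule.span_induction with
      | mem y hy =>
        have h2 : u y ∣ U := Finset.dvd_prod_of_mem u hy
        obtain ⟨w, hw⟩ := h2
        refine ⟨algebraMap A B (t * w) * c y, ?_⟩
        have e1 := (hcu y hy).2
        rw [hw]
        simp only [map_mul, hAB]
        linear_combination (-(algebraMap A L t * algebraMap A L w)) * e1 +
          (algebraMap A L (u y) * algebraMap A L w * y) * hbt
      | zero => exact ⟨0, by simp⟩
      | add x y _ _ hx hy =>
        obtain ⟨cx, hcx⟩ := hx
        obtain ⟨cy, hcy⟩ := hy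
        exact ⟨cx + cy, by rw [map_add, hcx, hcy, mul_add]⟩
      | smul r x _ hx =>
        obtain ⟨cx, hcx⟩ := hx
        refine ⟨r * cx, ?_⟩
        rw [map_mul, hcx, Algebra.smul_def]
        ring
    refine ⟨(⟨algebraMap A B U * b, hi⟩, ⟨algebraMap A B (U * t), ?_⟩), ?_⟩
    · exact ⟨U * t, M.mul_mem hUM ht, rfl⟩
    · apply hinjm
      simp only [map_mul, hBm, hAB]
      linear_combination (algebraMap A L U) * hbt
  · rintro ⟨⟨⟨i, hi⟩, ⟨t', ht'⟩⟩, hit⟩ y' hy'
    obtain ⟨t, ht, rfl⟩ := ht'
    simp only at hit
    rw [mem_traceDual_localization_iff (A := A) (B := B) M] at hy'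
    obtain ⟨s, hs, hsy⟩ := hy'
    rw [mem_differentIdeal_iff (A := A) (K := K) (L := L)] at hi
    obtain ⟨c, hc⟩ := hi _ hsy
    -- `b' y' = c / (t s)`
    have hts : IsUnit (algebraMap B Bm (algebraMap A B (t * s))) :=
      IsLocalization.map_units Bm (⟨algebraMap A B (t * s),
        ⟨t * s, M.mul_mem ht hs, rfl⟩⟩ : Algebra.algebraMapSubmonoid B M)
    obtain ⟨v, hv⟩ := hts
    refine ⟨algebraMap B Bm c * ((v⁻¹ : Bmˣ) : Bm), ?_⟩
    have hvL : algebraMap Bm L (v : Bm) = algebraMap A L t * algebraMap A L s := by
      rw [hv, ← IsScalarTower.algebraMap_apply B Bm L, ← IsScalarTower.algebraMap_apply A B L,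
        map_mul]
    have hvne : algebraMap Bm L (v : Bm) ≠ 0 := by
      intro h0
      have := hinjm (h0.trans (map_zero _).symm)
      exact v.ne_zero this
    have hvinv : algebraMap Bm L ((v⁻¹ : Bmˣ) : Bm) = (algebraMap Bm L (v : Bm))⁻¹ := by
      apply eq_inv_of_mul_eq_one_left
      rw [← map_mul, Units.inv_mul, map_one]
    have hitL : algebraMap Bm L b' * algebraMap A L t = algebraMap B L i := by
      have := congrArg (algebraMap Bm L) hit
      rwa [map_mul, ← IsScalarTower.algebraMap_apply B Bm L,
        ← IsScalarTower.algebraMap_apply B Bm L, ← IsScalarTower.algebraMap_apply A B L] at this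
    rw [map_mul, hvinv, ← IsScalarTower.algebraMap_apply B Bm L, hc, ← hitL, hvL]
    rw [hvL] at hvne
    rw [← div_eq_mul_inv, div_eq_iff hvne]
    ring

end Main

section Count

open IsDedekindDomain

/-- divisibility by powers of a prime disjoint from the submonoid is unchanged by localisation -/
theorem pow_dvd_map_iff {R : Type*} [CommRing R] [IsDedekindDomain R] (N : Submonoid R)
    {S : Type*} [CommRing S] [IsDedekindDomain S] [Algebra R S] [IsLocalization N S]
    {P : Ideal R} (hP : P.IsPrime) (hP0 : P ≠ ⊥) (hdisj : Disjoint (N : Set R) (P : Set R))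
    (I : Ideal R) (n : ℕ) :
    (P.map (algebraMap R S)) ^ n ∣ I.map (algebraMap R S) ↔ P ^ n ∣ I := by
  rw [Ideal.dvd_iff_le, Ideal.dvd_iff_le, ← Ideal.map_pow]
  rcases Nat.eq_zero_or_pos n with rfl | hn
  · simp only [pow_zero, Ideal.one_eq_top, le_top, iff_true]
    exact Ideal.map_mono le_top
  constructor
  · intro h
    have hmax : P.IsMaximal := hP.isMaximal hP0
    have hprim : (P ^ n).IsPrimary := by
      apply Ideal.isPrimary_of_isMaximal_radical
      rw [Ideal.radical_pow P hn.ne', hP.radical]
      exact hmax
    have hdisj' : Disjoint (N : Set R) ((P ^ n : Ideal R) : Set R) :=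
      hdisj.mono_right (Ideal.pow_le_self hn.ne')
    have h1 := IsLocalization.under_map_of_isPrimary_disjoint N S hprim hdisj'
    calc I ≤ (I.map (algebraMap R S)).under R := Ideal.le_comap_map
      _ ≤ ((P ^ n).map (algebraMap R S)).under R := Ideal.comap_mono h
      _ = P ^ n := h1
  · intro h
    exact Ideal.map_mono h

/-- two prime-power exponents agree as soon as the divisibility conditions agree -/
theorem count_eq_of_pow_dvd_iff {R S : Type*} [CommRing R] [IsDedekindDomain R] [CommRing S]
    [IsDedekindDomain S] {P I : Ideal R} {P' I' : Ideal S} (hP : P.IsPrime) (hP0 : P ≠ ⊥)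
    (hP' : P'.IsPrime) (hP'0 : P' ≠ ⊥) (hI : I ≠ ⊥) (hI' : I' ≠ ⊥)
    (h : ∀ n : ℕ, P' ^ n ∣ I' ↔ P ^ n ∣ I) :
    (Associates.mk P').count (Associates.mk I').factors =
      (Associates.mk P).count (Associates.mk I).factors := by
  have hirr : Irreducible (Associates.mk P) :=
    Associates.irreducible_mk.mpr (Ideal.prime_of_isPrime hP0 hP).irreducible
  have hirr' : Irreducible (Associates.mk P') :=
    Associates.irreducible_mk.mpr (Ideal.prime_of_isPrime hP'0 hP').irreducible
  have hm : Associates.mk I ≠ 0 := Associates.mk_ne_zero.mpr hI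
  have hm' : Associates.mk I' ≠ 0 := Associates.mk_ne_zero.mpr hI'
  have key : ∀ n : ℕ, n ≤ (Associates.mk P').count (Associates.mk I').factors ↔
      n ≤ (Associates.mk P).count (Associates.mk I).factors := by
    intro n
    rw [← Associates.prime_pow_dvd_iff_le hm' hirr', ← Associates.prime_pow_dvd_iff_le hm hirr,
      ← Associates.mk_pow, ← Associates.mk_pow, Associates.mk_le_mk_iff_dvd,
      Associates.mk_le_mk_iff_dvd]
    exact h n
  exact le_antisymm ((key _).mp le_rfl) ((key _).mpr le_rfl)

/-- a prime whose extension to the localisation is proper is disjoint from the submonoid -/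
theorem disjoint_of_map_ne_top {R : Type*} [CommRing R] (N : Submonoid R)
    {S : Type*} [CommRing S] [Algebra R S] [IsLocalization N S] {P : Ideal R}
    (h : P.map (algebraMap R S) ≠ ⊤) : Disjoint (N : Set R) (P : Set R) := by
  rw [Set.disjoint_left]
  intro m hm hmP
  apply h
  rw [Ideal.eq_top_iff_one]
  have hu : IsUnit (algebraMap R S m) := IsLocalization.map_units S ⟨m, hm⟩
  obtain ⟨v, hv⟩ := hu
  have h1 : algebraMap R S m ∈ P.map (algebraMap R S) := Ideal.mem_map_of_mem _ hmP
  have h2 := Ideal.mul_mem_left (P.map (algebraMap R S)) ((v⁻¹ : Sˣ) : S) h1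
  rwa [← hv, Units.inv_mul] at h2

/-- the different is nonzero (AKLB form) -/
theorem differentIdeal_ne_bot_aklb {A : Type*} (K L : Type*) {B : Type*}
    [CommRing A] [Field K] [CommRing B] [Field L]
    [Algebra A K] [Algebra B L] [Algebra A B] [Algebra K L] [Algebra A L]
    [IsScalarTower A K L] [IsScalarTower A B L]
    [IsDomain A] [IsFractionRing A K] [IsIntegrallyClosed A] [IsDedekindDomain B]
    [IsFractionRing B L] [IsIntegralClosure B A L] [FiniteDimensional K L]
    [Algebra.IsSeparable K L] [Module.IsTorsionFree A B] :
    differentIdeal A B ≠ ⊥ := by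
  rw [ne_eq, ← FractionalIdeal.coeIdeal_inj (K := L), coeIdeal_differentIdeal A K L B]
  simp

/-- **Prime-power divisibility of the different is local.** -/
theorem pow_dvd_differentIdeal_localization_iff {A : Type*} (K L : Type*) {B : Type*}
    [CommRing A] [Field K] [CommRing B] [Field L]
    [Algebra A K] [Algebra B L] [Algebra A B] [Algebra K L] [Algebra A L]
    [IsScalarTower A K L] [IsScalarTower A B L]
    [IsDomain A] [IsFractionRing A K] [IsIntegrallyClosed A] [IsDedekindDomain B]
    [IsFractionRing B L] [IsIntegralClosure B A L] [FiniteDimensional K L]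
    [Algebra.IsSeparable K L] [Module.IsTorsionFree A B] [Module.Finite A B]
    (M : Submonoid A) {Am Bm : Type*} [CommRing Am] [CommRing Bm]
    [Algebra A Am] [IsLocalization M Am] [Algebra B Bm]
    [IsLocalization (Algebra.algebraMapSubmonoid B M) Bm]
    [Algebra Am Bm]
    [Algebra Am K] [IsScalarTower A Am K] [Algebra Bm L] [IsScalarTower B Bm L]
    [Algebra Am L] [IsScalarTower Am K L] [IsScalarTower Am Bm L]
    [IsDomain Am] [IsFractionRing Am K] [IsIntegrallyClosed Am] [IsDedekindDomain Bm]
    [IsFractionRing Bm L] [IsIntegralClosure Bm Am L] [Module.IsTorsionFree Am Bm]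
    {P : Ideal B} (hP : P.IsPrime) (hP0 : P ≠ ⊥)
    (hdisj : Disjoint (Algebra.algebraMapSubmonoid B M : Set B) (P : Set B)) (n : ℕ) :
    (P.map (algebraMap B Bm)) ^ n ∣ differentIdeal Am Bm ↔ P ^ n ∣ differentIdeal A B := by
  rw [differentIdeal_localization (A := A) K L (B := B) M (Am := Am) (Bm := Bm)]
  exact pow_dvd_map_iff (Algebra.algebraMapSubmonoid B M) hP hP0 hdisj _ n

/-- **The different exponent is local**: the exponent of `P` in `differentIdeal A B` equals the
exponent of `P' = P Bm` in `differentIdeal Am Bm`.  Both sides are `Defs.diffExpAt` unfolded. -/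
theorem count_differentIdeal_localization {A : Type*} (K L : Type*) {B : Type*}
    [CommRing A] [Field K] [CommRing B] [Field L]
    [Algebra A K] [Algebra B L] [Algebra A B] [Algebra K L] [Algebra A L]
    [IsScalarTower A K L] [IsScalarTower A B L]
    [IsDomain A] [IsFractionRing A K] [IsIntegrallyClosed A] [IsDedekindDomain B]
    [IsFractionRing B L] [IsIntegralClosure B A L] [FiniteDimensional K L]
    [Algebra.IsSeparable K L] [Module.IsTorsionFree A B] [Module.Finite A B]
    (M : Submonoid A) {Am Bm : Type*} [CommRing Am] [CommRing Bm]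
    [Algebra A Am] [IsLocalization M Am] [Algebra B Bm]
    [IsLocalization (Algebra.algebraMapSubmonoid B M) Bm]
    [Algebra Am Bm]
    [Algebra Am K] [IsScalarTower A Am K] [Algebra Bm L] [IsScalarTower B Bm L]
    [Algebra Am L] [IsScalarTower Am K L] [IsScalarTower Am Bm L]
    [IsDomain Am] [IsFractionRing Am K] [IsIntegrallyClosed Am] [IsDedekindDomain Bm]
    [IsFractionRing Bm L] [IsIntegralClosure Bm Am L] [Module.IsTorsionFree Am Bm]
    (P : HeightOneSpectrum B) (P' : HeightOneSpectrum Bm)
    (hPP' : P'.asIdeal = P.asIdeal.map (algebraMap B Bm)) :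
    (Associates.mk P'.asIdeal).count (Associates.mk (differentIdeal Am Bm)).factors =
      (Associates.mk P.asIdeal).count (Associates.mk (differentIdeal A B)).factors := by
  have hdisj : Disjoint (Algebra.algebraMapSubmonoid B M : Set B) (P.asIdeal : Set B) := by
    apply disjoint_of_map_ne_top (Algebra.algebraMapSubmonoid B M) (S := Bm)
    rw [← hPP']
    exact P'.isPrime.ne_top
  refine count_eq_of_pow_dvd_iff P.isPrime P.ne_bot P'.isPrime P'.ne_bot
    (differentIdeal_ne_bot_aklb K L) (differentIdeal_ne_bot_aklb K L) fun n => ?_
  rw [hPP']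
  exact pow_dvd_differentIdeal_localization_iff K L M P.isPrime P.ne_bot hdisj n

/-- same as `count_differentIdeal_localization`, with `P` given as the contraction of `P'` -/
theorem count_differentIdeal_localization_of_under {A : Type*} (K L : Type*) {B : Type*}
    [CommRing A] [Field K] [CommRing B] [Field L]
    [Algebra A K] [Algebra B L] [Algebra A B] [Algebra K L] [Algebra A L]
    [IsScalarTower A K L] [IsScalarTower A B L]
    [IsDomain A] [IsFractionRing A K] [IsIntegrallyClosed A] [IsDedekindDomain B]
    [IsFractionRing B L] [IsIntegralClosure B A L] [FiniteDimensional K L]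
    [Algebra.IsSeparable K L] [Module.IsTorsionFree A B] [Module.Finite A B]
    (M : Submonoid A) {Am Bm : Type*} [CommRing Am] [CommRing Bm]
    [Algebra A Am] [IsLocalization M Am] [Algebra B Bm]
    [IsLocalization (Algebra.algebraMapSubmonoid B M) Bm]
    [Algebra Am Bm]
    [Algebra Am K] [IsScalarTower A Am K] [Algebra Bm L] [IsScalarTower B Bm L]
    [Algebra Am L] [IsScalarTower Am K L] [IsScalarTower Am Bm L]
    [IsDomain Am] [IsFractionRing Am K] [IsIntegrallyClosed Am] [IsDedekindDomain Bm]
    [IsFractionRing Bm L] [IsIntegralClosure Bm Am L] [Module.IsTorsionFree Am Bm]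
    (P : HeightOneSpectrum B) (P' : HeightOneSpectrum Bm)
    (hPP' : P.asIdeal = P'.asIdeal.under B) :
    (Associates.mk P'.asIdeal).count (Associates.mk (differentIdeal Am Bm)).factors =
      (Associates.mk P.asIdeal).count (Associates.mk (differentIdeal A B)).factors := by
  refine count_differentIdeal_localization K L M P P' ?_
  rw [hPP', IsLocalization.map_under (Algebra.algebraMapSubmonoid B M) Bm]

end Count

/-! ### the standard Mathlib setting: localisation at a prime of the base, inside `FractionRing`s -/

section AtPrime

open IsDedekindDomain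

attribute [local instance] FractionRing.liftAlgebra Localization.AtPrime.liftAlgebra

variable (A B : Type*) [CommRing A] [CommRing B] [Algebra A B] [IsDedekindDomain A]
  [IsDedekindDomain B] [Module.Finite A B] [Module.IsTorsionFree A B]
  [Algebra.IsSeparable (FractionRing A) (FractionRing B)] (p : Ideal A) [p.IsPrime]

/-- **The different commutes with localisation at a prime of the base** (the typeclass context of
Mathlib's `pow_sub_one_dvd_differentIdeal`, with Mathlib's instances for `Localization.AtPrime p`
and `Localization (algebraMapSubmonoid B p.primeCompl)`). -/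
theorem differentIdeal_localization_atPrime :
    differentIdeal (Localization.AtPrime p)
        (Localization (Algebra.algebraMapSubmonoid B p.primeCompl)) =
      (differentIdeal A B).map
        (algebraMap B (Localization (Algebra.algebraMapSubmonoid B p.primeCompl))) := by
  have : Algebra.IsIntegral A B := Algebra.IsIntegral.of_finite A B
  have : IsIntegralClosure B A (FractionRing B) :=
    IsIntegralClosure.of_isIntegrallyClosed B A (FractionRing B)
  have : IsIntegralClosure (Localization (Algebra.algebraMapSubmonoid B p.primeCompl))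
      (Localization.AtPrime p) (FractionRing B) :=
    IsIntegralClosure.of_isIntegrallyClosed _ _ _
  exact differentIdeal_localization (FractionRing A) (FractionRing B) p.primeCompl

/-- the different exponent at a prime `P` of `B` over `p` can be computed after localising at
`p` -/
theorem count_differentIdeal_localization_atPrime (P : HeightOneSpectrum B)
    (P' : HeightOneSpectrum (Localization (Algebra.algebraMapSubmonoid B p.primeCompl)))
    (hPP' : P'.asIdeal = P.asIdeal.map
      (algebraMap B (Localization (Algebra.algebraMapSubmonoid B p.primeCompl)))) :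
    (Associates.mk P'.asIdeal).count (Associates.mk (differentIdeal (Localization.AtPrime p)
        (Localization (Algebra.algebraMapSubmonoid B p.primeCompl)))).factors =
      (Associates.mk P.asIdeal).count (Associates.mk (differentIdeal A B)).factors := by
  have : Algebra.IsIntegral A B := Algebra.IsIntegral.of_finite A B
  have : IsIntegralClosure B A (FractionRing B) :=
    IsIntegralClosure.of_isIntegrallyClosed B A (FractionRing B)
  have : IsIntegralClosure (Localization (Algebra.algebraMapSubmonoid B p.primeCompl))
      (Localization.AtPrime p) (FractionRing B) :=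
    IsIntegralClosure.of_isIntegrallyClosed _ _ _
  exact count_differentIdeal_localization (FractionRing A) (FractionRing B) p.primeCompl P P' hPP'

end AtPrime

end Fermat.Agent.S18.Different.Localization
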