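import Mathlib
import Fermat.Agent.S18.Different.Localization

/-!
# PROJECT H (S18), slice H-C8d (part 1): primes of the localisation at `p` and their different
exponents

`A ⊆ B` Dedekind domains (`B` finite over `A`), `p` a nonzero maximal ideal of `A`,
`Ap := Localization.AtPrime p`, `Bp := Localization (algebraMapSubmonoid B p.primeCompl)`.

* `heightOneEquiv A B p hp : HeightOneSpectrum Bp ≃ p.primesOver B` (`Q ↦ Q ∩ B`), built on Mathlib's
  `IsDedekindDomain.primesOverEquivPrimesOver`; `map_heightOneEquiv`;
* `toHeightOne A B p hp : p.primesOver B → HeightOneSpectrum B`;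
* `finite_heightOneSpectrum` : `Bp` is semilocal;
* `count_differentIdeal_heightOneEquiv` : the exponent of `Q` in `differentIdeal Ap Bp` is the
  exponent of `Q ∩ B` in `differentIdeal A B` (both sides are `A.Defs.diffExpAt` unfolded);
* `finsum_count_differentIdeal` : the sum formula.
-/

set_option autoImplicit false
set_option linter.style.haveILetI false
set_option linter.unusedSectionVars false

namespace Fermat.Agent.S18.Different.LocalPrimes

open IsDedekindDomain IsLocalRing Algebra
open Fermat.Agent.S18.Different.Localization

attribute [local instance] FractionRing.liftAlgebra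

variable (A B : Type*) [CommRing A] [CommRing B] [Algebra A B] [IsDedekindDomain A]
  [IsDedekindDomain B] [Module.Finite A B] [Module.IsTorsionFree A B]
  (p : Ideal A) [p.IsMaximal]

local notation3 "Ap" => Localization.AtPrime p
local notation3 "Bp" => Localization (Algebra.algebraMapSubmonoid B p.primeCompl)

/-- the maximal ideal of `Ap` is nonzero -/
theorem maximalIdeal_ne_bot (hp : p ≠ ⊥) : maximalIdeal Ap ≠ ⊥ := by
  rw [← Localization.AtPrime.map_eq_maximalIdeal]
  intro h
  apply hp
  rw [Ideal.map_eq_bot_iff_of_injective (IsLocalization.injective Ap p.primeCompl_le_nonZeroDivisors)] at h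
  exact h

/-- nonzero primes of `Bp` = primes over the maximal ideal of `Ap` -/
noncomputable def heightOneEquivPrimesOver (hp : p ≠ ⊥) :
    HeightOneSpectrum Bp ≃ (maximalIdeal Ap).primesOver Bp where
  toFun Q := ⟨Q.asIdeal, by
    haveI : Algebra.IsIntegral A B := Algebra.IsIntegral.of_finite A B
    haveI : Q.asIdeal.IsMaximal := Q.isMaximal
    exact IsLocalization.AtPrime.mem_primesOver_of_isPrime Ap Bp⟩
  invFun Q := ⟨Q.1, Q.2.1, by
    intro h
    have h1 := Q.2.2
    rw [Ideal.liesOver_iff, h, Ideal.under_def, Ideal.comap_bot_of_injective] at h1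
    · exact maximalIdeal_ne_bot A p hp h1
    · exact FaithfulSMul.algebraMap_injective Ap Bp⟩
  left_inv Q := rfl
  right_inv Q := rfl

/-- nonzero primes of `Bp` = primes of `B` over `p` -/
noncomputable def heightOneEquiv (hp : p ≠ ⊥) :
    HeightOneSpectrum Bp ≃ p.primesOver B :=
  (heightOneEquivPrimesOver A B p hp).trans
    (IsDedekindDomain.primesOverEquivPrimesOver p Ap Bp hp).symm.toEquiv

theorem heightOneEquiv_apply (hp : p ≠ ⊥) (Q : HeightOneSpectrum Bp) :
    ((heightOneEquiv A B p hp Q : p.primesOver B) : Ideal B) = Q.asIdeal.under B := rfl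

theorem map_heightOneEquiv (hp : p ≠ ⊥) (Q : HeightOneSpectrum Bp) :
    ((heightOneEquiv A B p hp Q : p.primesOver B) : Ideal B).map (algebraMap B Bp) = Q.asIdeal := by
  rw [heightOneEquiv_apply]
  exact IsLocalization.map_under (Algebra.algebraMapSubmonoid B p.primeCompl) Bp Q.asIdeal

/-- a prime of `B` over `p` as a height one prime -/
def toHeightOne (hp : p ≠ ⊥) (P : p.primesOver B) : HeightOneSpectrum B :=
  ⟨P.1, P.2.1, by
    haveI := P.2.2
    exact Ideal.ne_bot_of_liesOver_of_ne_bot hp P.1⟩

@[simp]
theorem toHeightOne_asIdeal (hp : p ≠ ⊥) (P : p.primesOver B) :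
    (toHeightOne A B p hp P).asIdeal = P.1 := rfl

theorem toHeightOne_injective (hp : p ≠ ⊥) : Function.Injective (toHeightOne A B p hp) := by
  intro P P' h
  exact Subtype.ext (congrArg HeightOneSpectrum.asIdeal h)

theorem finite_heightOneSpectrum (hp : p ≠ ⊥) : Finite (HeightOneSpectrum Bp) := by
  haveI : Finite (p.primesOver B) := (Algebra.QuasiFinite.finite_primesOver p).to_subtype
  exact Finite.of_equiv _ (heightOneEquiv A B p hp).symm

variable [Algebra.IsSeparable (FractionRing A) (FractionRing B)]

/-- **the different exponent at a prime of the localisation = the global different exponent** -/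
theorem count_differentIdeal_heightOneEquiv (hp : p ≠ ⊥) (Q : HeightOneSpectrum Bp) :
    (Associates.mk Q.asIdeal).count (Associates.mk (differentIdeal Ap Bp)).factors =
      (Associates.mk (toHeightOne A B p hp (heightOneEquiv A B p hp Q)).asIdeal).count
        (Associates.mk (differentIdeal A B)).factors :=
  count_differentIdeal_localization_atPrime A B p _ Q (map_heightOneEquiv A B p hp Q).symm

/-- the same, starting from a prime of `B` over `p` -/
theorem count_differentIdeal_heightOneEquiv_symm (hp : p ≠ ⊥) (P : p.primesOver B) :
    (Associates.mk ((heightOneEquiv A B p hp).symm P).asIdeal).count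
        (Associates.mk (differentIdeal Ap Bp)).factors =
      (Associates.mk (toHeightOne A B p hp P).asIdeal).count
        (Associates.mk (differentIdeal A B)).factors := by
  rw [count_differentIdeal_heightOneEquiv A B p hp, Equiv.apply_symm_apply]

/-- **sum of the local different exponents = sum of the global ones over the primes above `p`** -/
theorem finsum_count_differentIdeal (hp : p ≠ ⊥) :
    ∑ᶠ Q : HeightOneSpectrum Bp,
        (Associates.mk Q.asIdeal).count (Associates.mk (differentIdeal Ap Bp)).factors =
      ∑ᶠ P : p.primesOver B, (Associates.mk (toHeightOne A B p hp P).asIdeal).count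
        (Associates.mk (differentIdeal A B)).factors := by
  rw [← finsum_comp_equiv (heightOneEquiv A B p hp)]
  exact finsum_congr fun Q => count_differentIdeal_heightOneEquiv A B p hp Q

end Fermat.Agent.S18.Different.LocalPrimes
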