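import Mathlib
import Fermat.Agent.S18.Different.Localization

/-!
# PROJECT H (S18), slice H-C8d (part 3): the different is invariant under ring isomorphisms

Two extensions `B₁/A₁`, `B₂/A₂` (the context of Mathlib's `differentIdeal`: `Aᵢ` integrally closed
domains, `Bᵢ` Dedekind, torsion-free; NO finiteness or separability hypothesis) and ring
isomorphisms `eA : A₁ ≃+* A₂`, `eB : B₁ ≃+* B₂` with `eB ∘ algebraMap = algebraMap ∘ eA`.

* `mem_traceDual_one_congr` : trace duals correspond (general AKLB form, four isomorphisms);
* `mem_differentIdeal_congr` : `eB b ∈ differentIdeal A₂ B₂ ↔ b ∈ differentIdeal A₁ B₁`;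
* `differentIdeal_congr` : `differentIdeal A₂ B₂ = (differentIdeal A₁ B₁).map eB`;
* `count_map_ringEquiv` : prime exponents are invariant under ring isomorphisms of Dedekind domains;
* `count_differentIdeal_congr` : the exponent of `P₂ = eB(P₁)` in the different of `B₂/A₂` is the
  exponent of `P₁` in the different of `B₁/A₁`.

Everything is Mathlib-only.
-/

set_option autoImplicit false

namespace Fermat.Agent.S18.Different.Congr

open nonZeroDivisors Algebra Submodule IsDedekindDomain
  Fermat.Agent.S18.Different.Localization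

section TraceDual

variable {A1 K1 L1 B1 A2 K2 L2 B2 : Type*}
  [CommRing A1] [Field K1] [CommRing B1] [Field L1]
  [Algebra A1 K1] [Algebra B1 L1] [Algebra A1 B1] [Algebra K1 L1] [Algebra A1 L1]
  [IsScalarTower A1 K1 L1] [IsScalarTower A1 B1 L1]
  [CommRing A2] [Field K2] [CommRing B2] [Field L2]
  [Algebra A2 K2] [Algebra B2 L2] [Algebra A2 B2] [Algebra K2 L2] [Algebra A2 L2]
  [IsScalarTower A2 K2 L2] [IsScalarTower A2 B2 L2]
  (eA : A1 ≃+* A2) (eK : K1 ≃+* K2) (eB : B1 ≃+* B2) (eL : L1 ≃+* L2)
  (hAK : ∀ a, eK (algebraMap A1 K1 a) = algebraMap A2 K2 (eA a))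
  (hBL : ∀ b, eL (algebraMap B1 L1 b) = algebraMap B2 L2 (eB b))
  (hKL : ∀ c, eL (algebraMap K1 L1 c) = algebraMap K2 L2 (eK c))

include hKL in
omit [Algebra A1 K1] [Algebra A1 L1] [IsScalarTower A1 K1 L1] [Algebra A2 K2] [Algebra A2 L2]
  [IsScalarTower A2 K2 L2] in
theorem trace_congr (z : L1) :
    Algebra.trace K2 L2 (eL z) = eK (Algebra.trace K1 L1 z) := by
  have he : RingHom.comp (algebraMap K2 L2) (eK : K1 →+* K2) =
      RingHom.comp (eL : L1 →+* L2) (algebraMap K1 L1) := by
    ext c
    exact (hKL c).symm
  rw [Algebra.trace_eq_of_equiv_equiv eK eL he z, RingEquiv.apply_symm_apply]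

include hAK in
omit [Algebra A1 L1] [Algebra A2 L2] in
theorem mem_range_congr (c : K1) :
    eK c ∈ (algebraMap A2 K2).range ↔ c ∈ (algebraMap A1 K1).range := by
  constructor
  · rintro ⟨a2, ha2⟩
    refine ⟨eA.symm a2, ?_⟩
    apply eK.injective
    rw [hAK, RingEquiv.apply_symm_apply, ha2]
  · rintro ⟨a1, rfl⟩
    exact ⟨eA a1, (hAK a1).symm⟩

include hAK hBL hKL in
/-- trace duals of `1` correspond under compatible isomorphisms -/
theorem mem_traceDual_one_congr {z : L1} :
    eL z ∈ Submodule.traceDual A2 K2 (1 : Submodule B2 L2) ↔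
      z ∈ Submodule.traceDual A1 K1 (1 : Submodule B1 L1) := by
  rw [mem_traceDual_one_iff', mem_traceDual_one_iff']
  constructor
  · intro h b
    have h1 := h (eB b)
    rw [← hBL, ← map_mul, trace_congr eK eL hKL, mem_range_congr eA eK hAK] at h1
    exact h1
  · intro h b
    have h1 := h (eB.symm b)
    rw [← mem_range_congr eA eK hAK, ← trace_congr eK eL hKL, map_mul, hBL,
      RingEquiv.apply_symm_apply] at h1
    exact h1

end TraceDual

section Different

attribute [local instance] FractionRing.liftAlgebra FractionRing.isScalarTower_liftAlgebra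

variable {A1 B1 A2 B2 : Type*} [CommRing A1] [CommRing B1] [CommRing A2] [CommRing B2]
  [Algebra A1 B1] [Algebra A2 B2]
  [IsDomain A1] [IsIntegrallyClosed A1] [IsDedekindDomain B1] [Module.IsTorsionFree A1 B1]
  [IsDomain A2] [IsIntegrallyClosed A2] [IsDedekindDomain B2] [Module.IsTorsionFree A2 B2]
  (eA : A1 ≃+* A2) (eB : B1 ≃+* B2)
  (h : ∀ a, eB (algebraMap A1 B1 a) = algebraMap A2 B2 (eA a))

/-- elementwise description of the different, with no finiteness hypotheses -/
theorem mem_differentIdeal_iff_forall {A B : Type*} [CommRing A] [CommRing B] [Algebra A B]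
    [IsDomain A] [IsIntegrallyClosed A] [IsDedekindDomain B] [Module.IsTorsionFree A B] (b : B) :
    b ∈ differentIdeal A B ↔
      ∀ y ∈ Submodule.traceDual A (FractionRing A) (1 : Submodule B (FractionRing B)),
        ∃ c : B, algebraMap B (FractionRing B) c = algebraMap B (FractionRing B) b * y := by
  rw [differentIdeal, Submodule.mem_comap, Algebra.linearMap_apply,
    Submodule.mem_div_iff_forall_mul_mem]
  refine forall₂_congr fun y _ => ?_
  rw [Submodule.mem_one]

include h in
theorem mem_differentIdeal_congr (b : B1) :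
    eB b ∈ differentIdeal A2 B2 ↔ b ∈ differentIdeal A1 B1 := by
  set eK : FractionRing A1 ≃+* FractionRing A2 := IsFractionRing.ringEquivOfRingEquiv eA with heK
  set eL : FractionRing B1 ≃+* FractionRing B2 := IsFractionRing.ringEquivOfRingEquiv eB with heL
  have hAK : ∀ a, eK (algebraMap A1 (FractionRing A1) a) = algebraMap A2 (FractionRing A2) (eA a) :=
    fun a => IsFractionRing.ringEquivOfRingEquiv_algebraMap eA a
  have hBL : ∀ b, eL (algebraMap B1 (FractionRing B1) b) = algebraMap B2 (FractionRing B2) (eB b) :=
    fun b => IsFractionRing.ringEquivOfRingEquiv_algebraMap eB b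
  have hKL : ∀ c, eL (algebraMap (FractionRing A1) (FractionRing B1) c) =
      algebraMap (FractionRing A2) (FractionRing B2) (eK c) := by
    intro c
    have hcomp : (RingHom.comp (eL : FractionRing B1 →+* FractionRing B2)
        (algebraMap (FractionRing A1) (FractionRing B1))) =
        RingHom.comp (algebraMap (FractionRing A2) (FractionRing B2))
          (eK : FractionRing A1 →+* FractionRing A2) := by
      apply IsLocalization.ringHom_ext A1⁰
      ext a
      simp only [RingHom.coe_comp, RingHom.coe_coe, Function.comp_apply]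
      rw [hAK, ← IsScalarTower.algebraMap_apply A1 (FractionRing A1) (FractionRing B1),
        IsScalarTower.algebraMap_apply A1 B1 (FractionRing B1), hBL, h,
        ← IsScalarTower.algebraMap_apply A2 B2 (FractionRing B2),
        IsScalarTower.algebraMap_apply A2 (FractionRing A2) (FractionRing B2)]
    exact congrArg (fun f => f c) hcomp
  rw [mem_differentIdeal_iff_forall, mem_differentIdeal_iff_forall]
  constructor
  · intro hb y hy
    have hy2 := (mem_traceDual_one_congr eA eK eB eL hAK hBL hKL).mpr hy
    obtain ⟨c, hc⟩ := hb (eL y) hy2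
    refine ⟨eB.symm c, ?_⟩
    apply eL.injective
    rw [hBL, RingEquiv.apply_symm_apply, hc, map_mul, hBL]
  · intro hb y hy
    have hy1 : eL.symm y ∈ Submodule.traceDual A1 (FractionRing A1)
        (1 : Submodule B1 (FractionRing B1)) := by
      rw [← mem_traceDual_one_congr eA eK eB eL hAK hBL hKL, RingEquiv.apply_symm_apply]
      exact hy
    obtain ⟨c, hc⟩ := hb (eL.symm y) hy1
    refine ⟨eB c, ?_⟩
    rw [← hBL, hc, map_mul, hBL, RingEquiv.apply_symm_apply]

include h in
/-- **the different is invariant under ring isomorphisms of extensions** -/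
theorem differentIdeal_congr :
    differentIdeal A2 B2 = (differentIdeal A1 B1).map (eB : B1 →+* B2) := by
  ext b2
  rw [show ((differentIdeal A1 B1).map (eB : B1 →+* B2)) = (differentIdeal A1 B1).map eB from rfl,
    Ideal.mem_map_of_equiv]
  constructor
  · intro hb
    refine ⟨eB.symm b2, ?_, RingEquiv.apply_symm_apply eB b2⟩
    rw [← mem_differentIdeal_congr eA eB h, RingEquiv.apply_symm_apply]
    exact hb
  · rintro ⟨b1, hb1, rfl⟩
    exact (mem_differentIdeal_congr eA eB h b1).mpr hb1

end Different

section Count

/-- the exponent of any ideal in the zero ideal is `0` by convention -/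
theorem count_factors_bot {R : Type*} [CommRing R] [IsDedekindDomain R] (P : Ideal R) :
    (Associates.mk P).count (Associates.mk (⊥ : Ideal R)).factors = 0 := by
  rw [← Ideal.zero_eq_bot, Associates.mk_zero, Associates.factors_zero]
  unfold Associates.count
  split_ifs <;> rfl

/-- prime exponents are invariant under ring isomorphisms of Dedekind domains -/
theorem count_map_ringEquiv {R S : Type*} [CommRing R] [IsDedekindDomain R] [CommRing S]
    [IsDedekindDomain S] (e : R ≃+* S) (P : HeightOneSpectrum R) (P' : HeightOneSpectrum S)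
    (hP : P'.asIdeal = P.asIdeal.map (e : R →+* S)) (I : Ideal R) :
    (Associates.mk P'.asIdeal).count (Associates.mk (I.map (e : R →+* S))).factors =
      (Associates.mk P.asIdeal).count (Associates.mk I).factors := by
  by_cases hI : I = ⊥
  · subst hI
    rw [Ideal.map_bot, count_factors_bot, count_factors_bot]
  have hI' : I.map (e : R →+* S) ≠ ⊥ := by
    rw [Ne, Ideal.map_eq_bot_iff_of_injective (f := (e : R →+* S)) e.injective]
    exact hI
  refine count_eq_of_pow_dvd_iff P.isPrime P.ne_bot P'.isPrime P'.ne_bot hI hI' fun n => ?_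
  rw [hP, ← Ideal.map_pow, Ideal.dvd_iff_le, Ideal.dvd_iff_le]
  constructor
  · intro hle x hx
    have h1 := hle (Ideal.mem_map_of_mem (e : R →+* S) hx)
    rw [show ((P.asIdeal ^ n).map (e : R →+* S)) = (P.asIdeal ^ n).map e from rfl,
      Ideal.mem_map_of_equiv] at h1
    obtain ⟨y, hy, hyx⟩ := h1
    rwa [← e.injective hyx]
  · intro hle
    exact Ideal.map_mono hle

variable {A1 B1 A2 B2 : Type*} [CommRing A1] [CommRing B1] [CommRing A2] [CommRing B2]
  [Algebra A1 B1] [Algebra A2 B2]
  [IsDomain A1] [IsIntegrallyClosed A1] [IsDedekindDomain B1] [Module.IsTorsionFree A1 B1]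
  [IsDomain A2] [IsIntegrallyClosed A2] [IsDedekindDomain B2] [Module.IsTorsionFree A2 B2]
  (eA : A1 ≃+* A2) (eB : B1 ≃+* B2)
  (h : ∀ a, eB (algebraMap A1 B1 a) = algebraMap A2 B2 (eA a))

include h in
/-- **different exponents are invariant under ring isomorphisms of extensions** -/
theorem count_differentIdeal_congr (P1 : HeightOneSpectrum B1) (P2 : HeightOneSpectrum B2)
    (hP : P2.asIdeal = P1.asIdeal.map (eB : B1 →+* B2)) :
    (Associates.mk P2.asIdeal).count (Associates.mk (differentIdeal A2 B2)).factors =
      (Associates.mk P1.asIdeal).count (Associates.mk (differentIdeal A1 B1)).factors := by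
  rw [differentIdeal_congr eA eB h]
  exact count_map_ringEquiv eB P1 P2 hP _

/-- the image of a height one prime under a ring isomorphism -/
def mapHeightOne {R S : Type*} [CommRing R] [IsDedekindDomain R] [CommRing S]
    [IsDedekindDomain S] (e : R ≃+* S) (P : HeightOneSpectrum R) : HeightOneSpectrum S where
  asIdeal := P.asIdeal.map (e : R →+* S)
  isPrime := by
    have : (P.asIdeal.map (e : R →+* S)) = P.asIdeal.comap (e.symm : S →+* R) :=
      (Ideal.comap_symm (I := P.asIdeal) e).symm
    rw [this]
    have := P.isPrime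
    exact Ideal.comap_isPrime _ _
  ne_bot := by
    rw [Ne, Ideal.map_eq_bot_iff_of_injective (f := (e : R →+* S)) e.injective]
    exact P.ne_bot

/-- height one primes correspond under a ring isomorphism -/
def heightOneCongr {R S : Type*} [CommRing R] [IsDedekindDomain R] [CommRing S]
    [IsDedekindDomain S] (e : R ≃+* S) : HeightOneSpectrum R ≃ HeightOneSpectrum S where
  toFun := mapHeightOne e
  invFun := mapHeightOne e.symm
  left_inv P := by
    ext1
    change (P.asIdeal.map (e : R →+* S)).map (e.symm : S →+* R) = P.asIdeal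
    rw [Ideal.map_map]
    have : (e.symm : S →+* R).comp (e : R →+* S) = RingHom.id R := by
      ext x
      simp
    rw [this, Ideal.map_id]
  right_inv P := by
    ext1
    change (P.asIdeal.map (e.symm : S →+* R)).map (e : R →+* S) = P.asIdeal
    rw [Ideal.map_map]
    have : (e : R →+* S).comp (e.symm : S →+* R) = RingHom.id S := by
      ext x
      simp
    rw [this, Ideal.map_id]

include h in
/-- **(LC4)** sums of different exponents are invariant under ring isomorphisms of extensions -/
theorem finsum_count_differentIdeal_congr :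
    ∑ᶠ P2 : HeightOneSpectrum B2,
        (Associates.mk P2.asIdeal).count (Associates.mk (differentIdeal A2 B2)).factors =
      ∑ᶠ P1 : HeightOneSpectrum B1,
        (Associates.mk P1.asIdeal).count (Associates.mk (differentIdeal A1 B1)).factors := by
  rw [← finsum_comp_equiv (heightOneCongr eB)]
  refine finsum_congr fun P1 => ?_
  exact count_differentIdeal_congr eA eB h P1 (heightOneCongr eB P1) rfl

end Count

end Fermat.Agent.S18.Different.Congr
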