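import Mathlib
import Fermat.Agent.S18.Different.Action
import Fermat.Agent.S18.C.TowerCount

/-!
# PROJECT H (S18), slice H-A4r: ramification index = order of the decomposition group

Context of `Different/Action.lean`: `A`, `B` Dedekind domains, `G` a finite group acting on `B`
with `IsGaloisGroup G A B`.  For a prime `P` of `B`:

* `ramificationIdx_mul_inertiaDeg_eq_card_stabilizer` : `e(P/A) * f(P/A) = #Stab_G(P)`;
* `ramificationIdx_eq_card_stabilizer` : `e(P/A) = #Stab_G(P)` when the residue field extension at
  `P` is trivial.

(`Ideal.ramificationIdx`, `Ideal.inertiaDeg` are Mathlib's new API `P.ramificationIdx A`; the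
action of `G` on ideals is the pointwise one.)  No perfectness hypothesis on the residue field.
-/

set_option autoImplicit false
set_option linter.style.haveILetI false
set_option linter.unusedSectionVars false

namespace Fermat.Agent.S18.Different.ActionRam

open IsDedekindDomain HeightOneSpectrum
open scoped Pointwise

variable (G A B : Type*) [Group G] [Fintype G] [CommRing A] [IsDedekindDomain A] [CommRing B]
  [IsDedekindDomain B] [Algebra A B] [FaithfulSMul A B] [MulSemiringAction G B]
  [IsGaloisGroup G A B]

/-- `e f = #Stab(P)` -/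
theorem ramificationIdx_mul_inertiaDeg_eq_card_stabilizer (P : HeightOneSpectrum B) :
    P.asIdeal.ramificationIdx A * P.asIdeal.inertiaDeg A =
      Nat.card (MulAction.stabilizer G P.asIdeal) := by
  haveI := Action.moduleFinite G A B
  haveI hcomm : SMulCommClass G A B := IsGaloisGroup.commutes
  set p : Ideal A := P.asIdeal.under A with hp
  haveI : P.asIdeal.IsPrime := P.isPrime
  haveI : p.IsPrime := Ideal.IsPrime.under A P.asIdeal
  haveI : P.asIdeal.LiesOver p := ⟨rfl⟩
  have h1 := Ideal.ncard_primesOver_mul_ramificationIdxIn_mul_inertiaDegIn p B G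
  rw [Ideal.ramificationIdxIn_eq_ramificationIdx p P.asIdeal G,
    Ideal.inertiaDegIn_eq_inertiaDeg p P.asIdeal G,
    ← Algebra.IsInvariant.orbit_eq_primesOver A B G p P.asIdeal] at h1
  have h2 : (MulAction.orbit G P.asIdeal).ncard *
      Nat.card (MulAction.stabilizer G P.asIdeal) = Nat.card G := by
    rw [← Nat.card_coe_set_eq, ← Nat.card_prod]
    exact Nat.card_congr (MulAction.orbitProdStabilizerEquivGroup G P.asIdeal)
  have h0 : (MulAction.orbit G P.asIdeal).ncard ≠ 0 := by
    intro h
    rw [h, zero_mul] at h2
    exact Nat.card_pos.ne' h2.symm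
  exact Nat.eq_of_mul_eq_mul_left (Nat.pos_of_ne_zero h0) (h1.trans h2.symm)

/-- trivial residue field extension at `P`: `e(P/A) = #Stab(P)` -/
theorem ramificationIdx_eq_card_stabilizer (P : HeightOneSpectrum B)
    (hres : ∀ b : B, ∃ a : A, b - algebraMap A B a ∈ P.asIdeal) :
    P.asIdeal.ramificationIdx A = Nat.card (MulAction.stabilizer G P.asIdeal) := by
  haveI := Action.isIntegral G A B
  have hf := Fermat.Agent.S18.C.TowerCount.inertiaDeg_eq_one_of_forall_exists A P hres
  rw [← ramificationIdx_mul_inertiaDeg_eq_card_stabilizer G A B P, hf, mul_one]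

open scoped Classical in
/-- the filter of `Action.diffExpAt_eq_sum` (without `g ≠ 1`) has `#Stab(P)` elements -/
theorem card_filter_stabilizes (I : Ideal B) :
    (Finset.univ.filter (fun g : G => ∀ b ∈ I, g • b ∈ I)).card =
      Nat.card (MulAction.stabilizer G I) := by
  rw [Nat.card_eq_fintype_card, Fintype.card_subtype]
  congr 1
  ext g
  simp only [Finset.mem_filter, Finset.mem_univ, true_and, Action.stabilizes_iff G B I g]

open scoped Classical in
/-- trivial residue field extension at `P`: `e(P/A)` is the number of `g` with `g P ⊆ P` -/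
theorem ramificationIdx_eq_card_filter (P : HeightOneSpectrum B)
    (hres : ∀ b : B, ∃ a : A, b - algebraMap A B a ∈ P.asIdeal) :
    P.asIdeal.ramificationIdx A =
      (Finset.univ.filter (fun g : G => ∀ b ∈ P.asIdeal, g • b ∈ P.asIdeal)).card := by
  rw [card_filter_stabilizes, ramificationIdx_eq_card_stabilizer G A B P hres]

end Fermat.Agent.S18.Different.ActionRam
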