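import Mathlib

/-!
# PROJECT H (S18), block A4-local: a totally ramified extension of discrete valuation rings with
trivial residue extension is monogenic, generated by any uniformiser

`A ⊆ B` discrete valuation rings, `B` finite over `A`, every element of `B` congruent modulo the
maximal ideal of `B` to an element of `A` (trivial residue field extension), `t` a uniformiser of
`B`.  Then `B = A[t]` (`adjoin_uniformizer_eq_top`), hence the conductor of `t` is the unit ideal
(`conductor_uniformizer_eq_top`).
-/

set_option autoImplicit false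

namespace Fermat.Agent.S18.Different

open IsLocalRing

variable {A B : Type*} [CommRing A] [IsDomain A] [IsDiscreteValuationRing A]
  [CommRing B] [IsDomain B] [IsDiscreteValuationRing B] [Algebra A B]

omit [IsDomain A] [IsDiscreteValuationRing A] in
/-- successive approximation: every element of `B` is a polynomial in `t` of degree `< n` with
coefficients in `A`, up to a multiple of `t ^ n`. -/
theorem exists_adjoin_add_pow_mul
    (hres : ∀ b : B, ∃ a : A, b - algebraMap A B a ∈ maximalIdeal B)
    {t : B} (ht : Irreducible t) (n : ℕ) (b : B) :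
    ∃ s ∈ Algebra.adjoin A {t}, ∃ b' : B, b = s + t ^ n * b' := by
  induction n generalizing b with
  | zero => exact ⟨0, Subalgebra.zero_mem _, b, by simp⟩
  | succ n ih =>
    obtain ⟨s, hs, b', hb⟩ := ih b
    obtain ⟨a, ha⟩ := hres b'
    have hmax := ht.maximalIdeal_eq
    rw [hmax] at ha
    obtain ⟨b'', hb''⟩ := Ideal.mem_span_singleton'.mp ha
    refine ⟨s + algebraMap A B a * t ^ n, ?_, b'', ?_⟩
    · have htS : t ∈ Algebra.adjoin A {t} := Algebra.self_mem_adjoin_singleton A t
      exact Subalgebra.add_mem _ hs (Subalgebra.mul_mem _ (Subalgebra.algebraMap_mem _ a)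
        (Subalgebra.pow_mem _ htS n))
    · have h2 : b' = algebraMap A B a + b'' * t := by rw [hb'']; ring
      rw [hb, h2]; ring

variable [Module.Finite A B] [FaithfulSMul A B]

/-- a uniformiser of `A` is a unit times a positive power of a uniformiser of `B` -/
theorem exists_unit_mul_pow_eq_algebraMap {ϖ : A} (hϖ : Irreducible ϖ) {t : B}
    (ht : Irreducible t) :
    ∃ (u : Bˣ) (e : ℕ), algebraMap A B ϖ = u * t ^ e ∧ 0 < e := by
  have hne : algebraMap A B ϖ ≠ 0 := by
    rw [Ne, map_eq_zero_iff _ (FaithfulSMul.algebraMap_injective A B)]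
    exact hϖ.ne_zero
  obtain ⟨e, u, hu⟩ := IsDiscreteValuationRing.eq_unit_mul_pow_irreducible hne ht
  refine ⟨u, e, hu, Nat.pos_of_ne_zero ?_⟩
  rintro rfl
  have hunit : IsUnit (algebraMap A B ϖ) := by rw [hu, pow_zero, mul_one]; exact u.isUnit
  have : Algebra.IsIntegral A B := Algebra.IsIntegral.of_finite A B
  exact hϖ.not_isUnit ((isUnit_map_iff (algebraMap A B) ϖ).mp hunit)

/-- **Monogenicity.**  A finite extension of discrete valuation rings with trivial residue field
extension is generated by any uniformiser of the top ring. -/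
theorem adjoin_uniformizer_eq_top
    (hres : ∀ b : B, ∃ a : A, b - algebraMap A B a ∈ maximalIdeal B)
    {t : B} (ht : Irreducible t) : Algebra.adjoin A {t} = ⊤ := by
  obtain ⟨ϖ, hϖ⟩ := IsDiscreteValuationRing.exists_irreducible A
  obtain ⟨u, e, hu, -⟩ := exists_unit_mul_pow_eq_algebraMap hϖ ht
  rw [← Algebra.toSubmodule_eq_top, eq_top_iff]
  refine Submodule.le_of_le_smul_of_le_jacobson_bot (I := maximalIdeal A)
    (Module.Finite.fg_top) ?_ ?_
  · rw [IsLocalRing.jacobson_eq_maximalIdeal ⊥ bot_ne_top]
  · intro b _
    obtain ⟨s, hs, b', rfl⟩ := exists_adjoin_add_pow_mul hres ht e b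
    refine Submodule.add_mem_sup ((Subalgebra.mem_toSubmodule _).2 hs) ?_
    have h1 : t ^ e * b' = ϖ • ((↑u⁻¹ : B) * b') := by
      rw [Algebra.smul_def, hu]
      calc t ^ e * b' = (↑u * ↑u⁻¹) * (t ^ e * b') := by rw [Units.mul_inv, one_mul]
        _ = ↑u * t ^ e * (↑u⁻¹ * b') := by ring
    rw [h1]
    exact Submodule.smul_mem_smul (hϖ.maximalIdeal_eq ▸ Ideal.mem_span_singleton_self ϖ)
      Submodule.mem_top

/-- the conductor of a uniformiser is the unit ideal -/
theorem conductor_uniformizer_eq_top
    (hres : ∀ b : B, ∃ a : A, b - algebraMap A B a ∈ maximalIdeal B)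
    {t : B} (ht : Irreducible t) : conductor A t = ⊤ :=
  conductor_eq_top_of_adjoin_eq_top (adjoin_uniformizer_eq_top hres ht)

end Fermat.Agent.S18.Different
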