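import Mathlib
import Fermat.Agent.S18.Different.Monogenic
import Fermat.Agent.S18.Different.GaloisPoly

/-!
# PROJECT H (S18), block A4-local: Hilbert's formula for the different, local totally ramified case

Setting (`AKLB`): `A ⊆ B` discrete valuation rings with fraction fields `K ⊆ L`, `L/K` finite
Galois, `B` the integral closure of `A` in `L` (so `B` is LOCAL: one prime above), trivial residue
field extension (`hres`), `t` a uniformiser of `B`.  Then

* `differentIdeal_eq_span_aeval_derivative` : `𝔇_{B/A} = (f'(t))`, `f` the minimal polynomial of `t`;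
* `differentIdeal_eq_span_prod` : `𝔇_{B/A} = (∏_{g ≠ 1} (t - g t))`;
* `differentIdeal_eq_pow_sum` : if `(t - g t) = 𝔪_B ^ i(g)` for `g ≠ 1`, then
  `𝔇_{B/A} = 𝔪_B ^ (∑_{g ≠ 1} i(g))`  (**Hilbert's different formula**).
-/

set_option autoImplicit false
set_option linter.unusedSectionVars false
set_option linter.style.haveILetI false

namespace Fermat.Agent.S18.Different

open IsLocalRing Polynomial

variable (A K L B : Type*) [CommRing A] [IsDomain A] [IsDiscreteValuationRing A]
  [CommRing B] [IsDomain B] [IsDiscreteValuationRing B]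
  [Field K] [Field L] [Algebra A K] [IsFractionRing A K] [Algebra B L] [IsFractionRing B L]
  [Algebra A B] [Algebra K L] [Algebra A L] [IsScalarTower A K L] [IsScalarTower A B L]
  [FiniteDimensional K L] [IsGalois K L] [IsIntegralClosure B A L]

include K L in
theorem finite_of_aklb : Module.Finite A B := IsIntegralClosure.finite A K L B

include K L in
theorem faithfulSMul_of_aklb : FaithfulSMul A B := by
  rw [faithfulSMul_iff_algebraMap_injective]
  intro x y hxy
  have h := congrArg (algebraMap B L) hxy
  rw [← IsScalarTower.algebraMap_apply, ← IsScalarTower.algebraMap_apply,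
    IsScalarTower.algebraMap_apply A K L, IsScalarTower.algebraMap_apply A K L] at h
  exact IsFractionRing.injective A K ((algebraMap K L).injective h)

variable {B}

include A in
/-- if `B = A[t]` then `L = K[t]` -/
theorem adjoin_field_eq_top_of_adjoin_eq_top {t : B} (ht : Algebra.adjoin A {t} = ⊤) :
    Algebra.adjoin K {algebraMap B L t} = ⊤ := by
  have hint : IsIntegral K (algebraMap B L t) := Algebra.IsIntegral.isIntegral _
  have hfield : (IntermediateField.adjoin K {algebraMap B L t}).toSubalgebra =
      Algebra.adjoin K {algebraMap B L t} :=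
    IntermediateField.adjoin_simple_toSubalgebra_of_isAlgebraic hint.isAlgebraic
  -- the image of `B` lies in `K[t]`
  have hB : ∀ b : B, algebraMap B L b ∈ Algebra.adjoin K {algebraMap B L t} := by
    intro b
    have hb : b ∈ Algebra.adjoin A {t} := ht ▸ Algebra.mem_top
    induction hb using Algebra.adjoin_induction with
    | mem x hx =>
      rw [Set.mem_singleton_iff] at hx; subst hx
      exact Algebra.self_mem_adjoin_singleton K _
    | algebraMap a =>
      rw [← IsScalarTower.algebraMap_apply, IsScalarTower.algebraMap_apply A K L]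
      exact Subalgebra.algebraMap_mem _ _
    | add x y _ _ hx hy => rw [map_add]; exact Subalgebra.add_mem _ hx hy
    | mul x y _ _ hx hy => rw [map_mul]; exact Subalgebra.mul_mem _ hx hy
  rw [eq_top_iff]
  intro x _
  obtain ⟨b, s, hs, rfl⟩ := IsFractionRing.div_surjective (A := B) x
  have hmem : ∀ y : L, y ∈ Algebra.adjoin K {algebraMap B L t} →
      y ∈ IntermediateField.adjoin K {algebraMap B L t} := fun y hy => by
    rw [← IntermediateField.mem_toSubalgebra, hfield]; exact hy
  have hdiv : algebraMap B L b / algebraMap B L s ∈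
      IntermediateField.adjoin K {algebraMap B L t} :=
    div_mem (hmem _ (hB b)) (hmem _ (hB s))
  rw [← hfield]
  exact hdiv

variable (B)

/-- **The different of a monogenic totally ramified extension** is generated by `f'(t)`. -/
theorem differentIdeal_eq_span_aeval_derivative
    (hres : ∀ b : B, ∃ a : A, b - algebraMap A B a ∈ maximalIdeal B)
    {t : B} (ht : Irreducible t) :
    haveI := finite_of_aklb A K L B
    haveI := faithfulSMul_of_aklb A K L B
    differentIdeal A B = Ideal.span {aeval t (derivative (minpoly A t))} := by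
  haveI := finite_of_aklb A K L B
  haveI := faithfulSMul_of_aklb A K L B
  have htop := adjoin_uniformizer_eq_top (A := A) hres ht
  have h := conductor_mul_differentIdeal A K L t
    (adjoin_field_eq_top_of_adjoin_eq_top A K L htop)
  rwa [conductor_eq_top_of_adjoin_eq_top htop, Ideal.top_mul] at h


variable {B} in
include A K L in
/-- a non-trivial element of the Galois group moves every generator of `B` over `A` -/
theorem sub_galRestrict_ne_zero {t : B} (htop : Algebra.adjoin A {t} = ⊤) {g : Gal(L/K)}
    (hg : g ≠ 1) : t - galRestrict A K L B g t ≠ 0 := by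
  intro h
  apply hg
  have h1 : algebraMap B L (galRestrict A K L B g t) = algebraMap B L t := by
    rw [← sub_eq_zero.mp h]
  rw [algebraMap_galRestrict_apply] at h1
  have := galois_smul_injective (adjoin_field_eq_top_of_adjoin_eq_top A K L htop)
    (a₁ := g) (a₂ := 1)
  exact this (by simpa using h1)

/-- `f'(t) = ∏_{g ≠ 1} (t - g t)` in `B`, for a generator `t` of `B` over `A`. -/
theorem aeval_derivative_minpoly_eq_prod_galRestrict [DecidableEq Gal(L/K)] {t : B}
    (htop : Algebra.adjoin A {t} = ⊤) :
    aeval t (derivative (minpoly A t)) =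
      ∏ g ∈ Finset.univ.erase (1 : Gal(L/K)), (t - galRestrict A K L B g t) := by
  apply IsFractionRing.injective B L
  have hAt : IsIntegral A t := IsIntegralClosure.isIntegral A L t
  have h1 := aeval_derivative_minpoly_eq_prod (K := K)
    (adjoin_field_eq_top_of_adjoin_eq_top A K L htop)
  rw [minpoly.isIntegrallyClosed_eq_field_fractions K L hAt, derivative_map,
    aeval_map_algebraMap, aeval_algebraMap_apply] at h1
  rw [h1, map_prod]
  refine Finset.prod_congr rfl fun g _ => ?_
  rw [map_sub, algebraMap_galRestrict_apply]

/-- **Hilbert's formula, generator form**: `𝔇_{B/A} = (∏_{g ≠ 1} (t - g t))`. -/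
theorem differentIdeal_eq_span_prod [DecidableEq Gal(L/K)]
    (hres : ∀ b : B, ∃ a : A, b - algebraMap A B a ∈ maximalIdeal B)
    {t : B} (ht : Irreducible t) :
    haveI := finite_of_aklb A K L B
    haveI := faithfulSMul_of_aklb A K L B
    differentIdeal A B =
      Ideal.span {∏ g ∈ Finset.univ.erase (1 : Gal(L/K)), (t - galRestrict A K L B g t)} := by
  haveI := finite_of_aklb A K L B
  haveI := faithfulSMul_of_aklb A K L B
  rw [differentIdeal_eq_span_aeval_derivative A K L B hres ht,
    aeval_derivative_minpoly_eq_prod_galRestrict A K L B (adjoin_uniformizer_eq_top hres ht)]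

/-- **Hilbert's different formula** (local, totally ramified, trivial residue extension): if
`(t - g t) = 𝔪_B ^ i(g)` for every `g ≠ 1`, then `𝔇_{B/A} = 𝔪_B ^ (∑_{g ≠ 1} i(g))`. -/
theorem differentIdeal_eq_pow_sum [DecidableEq Gal(L/K)]
    (hres : ∀ b : B, ∃ a : A, b - algebraMap A B a ∈ maximalIdeal B)
    {t : B} (ht : Irreducible t) (i : Gal(L/K) → ℕ)
    (hi : ∀ g : Gal(L/K), g ≠ 1 →
      Ideal.span {t - galRestrict A K L B g t} = maximalIdeal B ^ i g) :
    haveI := finite_of_aklb A K L B
    haveI := faithfulSMul_of_aklb A K L B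
    differentIdeal A B = maximalIdeal B ^ ∑ g ∈ Finset.univ.erase (1 : Gal(L/K)), i g := by
  haveI := finite_of_aklb A K L B
  haveI := faithfulSMul_of_aklb A K L B
  rw [differentIdeal_eq_span_prod A K L B hres ht, ← Ideal.prod_span_singleton,
    ← Finset.prod_pow_eq_pow_sum]
  exact Finset.prod_congr rfl fun g hg => hi g (Finset.ne_of_mem_erase hg)

/-- existence form of Hilbert's formula -/
theorem exists_differentIdeal_eq_pow_sum [DecidableEq Gal(L/K)]
    (hres : ∀ b : B, ∃ a : A, b - algebraMap A B a ∈ maximalIdeal B)
    {t : B} (ht : Irreducible t) :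
    haveI := finite_of_aklb A K L B
    haveI := faithfulSMul_of_aklb A K L B
    ∃ i : Gal(L/K) → ℕ,
      (∀ g : Gal(L/K), g ≠ 1 →
        Ideal.span {t - galRestrict A K L B g t} = maximalIdeal B ^ i g) ∧
      differentIdeal A B = maximalIdeal B ^ ∑ g ∈ Finset.univ.erase (1 : Gal(L/K)), i g := by
  haveI := finite_of_aklb A K L B
  haveI := faithfulSMul_of_aklb A K L B
  have htop := adjoin_uniformizer_eq_top (A := A) hres ht
  have hex : ∀ g : Gal(L/K), ∃ n : ℕ, g ≠ 1 →
      Ideal.span {t - galRestrict A K L B g t} = maximalIdeal B ^ n := by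
    intro g
    by_cases hg : g = 1
    · exact ⟨0, fun h => absurd hg h⟩
    · have hne : Ideal.span {t - galRestrict A K L B g t} ≠ ⊥ := by
        rw [Ne, Ideal.span_singleton_eq_bot]
        exact sub_galRestrict_ne_zero A K L htop hg
      obtain ⟨n, hn⟩ := IsDiscreteValuationRing.ideal_eq_span_pow_irreducible hne ht
      refine ⟨n, fun _ => ?_⟩
      rw [hn, ht.maximalIdeal_eq, Ideal.span_singleton_pow]
  choose i hi using hex
  exact ⟨i, hi, differentIdeal_eq_pow_sum A K L B hres ht i hi⟩

end Fermat.Agent.S18.Different
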